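/-
Case II of Fermat's Last Theorem for an odd prime `p` such that the ring of integers of the
`p`-th cyclotomic field is a PID and satisfies Kummer's lemma (Kummer's descent).
-/
import Mathlib

set_option autoImplicit false

namespace Fermat.Agent.S10.CaseIIDescent

open NumberField Polynomial Finset

/-- Kummer's lemma for the number field `K` and the prime `p`: a unit congruent to a rational
integer modulo `p` is a `p`-th power. -/
def KummerProp (p : ℕ) (K : Type*) [Field K] [NumberField K] : Prop :=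
  ∀ u : (𝓞 K)ˣ, (∃ n : ℤ, (p : 𝓞 K) ∣ (u : 𝓞 K) - n) → ∃ v : (𝓞 K)ˣ, u = v ^ p

variable {p : ℕ} [hp : Fact p.Prime] {K : Type*} [Field K] [NumberField K]
  [IsCyclotomicExtension {p} ℚ K] {ζ : K} (hζ : IsPrimitiveRoot ζ p)

include hζ in
/-- Every `p`-th power in `𝓞 K` is congruent to a rational integer modulo `p`. -/
theorem exists_int_sub_pow_prime_dvd (a : 𝓞 K) : ∃ n : ℤ, (p : 𝓞 K) ∣ a ^ p - n := by
  have htop : Algebra.adjoin ℤ {hζ.toInteger} = ⊤ := by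
    rw [← hζ.integralPowerBasis_gen]; exact hζ.integralPowerBasis.adjoin_gen_eq_top
  have ha : a ∈ Algebra.adjoin ℤ {hζ.toInteger} := htop ▸ Algebra.mem_top
  induction ha using Algebra.adjoin_induction with
  | mem x hx =>
    rw [Set.mem_singleton_iff] at hx; subst hx
    exact ⟨1, by simp [hζ.toInteger_isPrimitiveRoot.pow_eq_one]⟩
  | algebraMap r => exact ⟨r ^ p, by simp⟩
  | add x y _ _ hx hy =>
    obtain ⟨n, hn⟩ := hx; obtain ⟨m, hm⟩ := hy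
    refine ⟨n + m, ?_⟩
    rw [add_pow_prime_eq hp.out]
    have : x ^ p + y ^ p + (p : 𝓞 K) * x * y *
        ∑ k ∈ Finset.Ioo 0 p, x ^ (k - 1) * y ^ (p - k - 1) * ((p.choose k / p : ℕ) : 𝓞 K)
        - ((n + m : ℤ) : 𝓞 K) = (x ^ p - n) + (y ^ p - m) + (p : 𝓞 K) * (x * y *
        ∑ k ∈ Finset.Ioo 0 p, x ^ (k - 1) * y ^ (p - k - 1) * ((p.choose k / p : ℕ) : 𝓞 K)) := by
      push_cast; ring
    rw [this]
    exact dvd_add (dvd_add hn hm) (dvd_mul_right _ _)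
  | mul x y _ _ hx hy =>
    obtain ⟨n, hn⟩ := hx; obtain ⟨m, hm⟩ := hy
    refine ⟨n * m, ?_⟩
    have : (x * y) ^ p - ((n * m : ℤ) : 𝓞 K) = (x ^ p - n) * y ^ p + n * (y ^ p - m) := by
      push_cast; ring
    rw [this]
    exact dvd_add (Dvd.dvd.mul_right hn _) (Dvd.dvd.mul_left hm _)


include hζ in
/-- The descent step. -/
theorem descent_step [IsPrincipalIdealRing (𝓞 K)] (hp2 : p ≠ 2) (hKum : KummerProp p K)
    {x y z : 𝓞 K} {ε : (𝓞 K)ˣ} {M : ℕ} (hM : 1 ≤ M)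
    (hxy : IsCoprime x y) (hy : ¬ (hζ.toInteger - 1) ∣ y) (hz : ¬ (hζ.toInteger - 1) ∣ z)
    (e : x ^ p + y ^ p = ε * ((hζ.toInteger - 1) ^ M * z) ^ p) :
    2 ≤ M ∧ ∃ (x' y' z' : 𝓞 K) (ε' : (𝓞 K)ˣ), IsCoprime x' y' ∧ ¬ (hζ.toInteger - 1) ∣ y' ∧
      ¬ (hζ.toInteger - 1) ∣ z' ∧
      x' ^ p + y' ^ p = ε' * ((hζ.toInteger - 1) ^ (M - 1) * z') ^ p := by
  classical
  have hπ : Prime (hζ.toInteger - 1) := hζ.zeta_sub_one_prime'
  generalize hπdef : hζ.toInteger - 1 = π at *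
  have hζ' : IsPrimitiveRoot hζ.toInteger p := hζ.toInteger_isPrimitiveRoot
  have hodd : Odd p := hp.out.odd_of_ne_two hp2
  have hp3 : 3 ≤ p := by have := hp.out.two_le; omega
  have hpass : Associated (π ^ (p - 1)) (p : 𝓞 K) := by
    rw [← hπdef]; exact IsCyclotomicExtension.Rat.associated_zeta_sub_one_pow_prime p hζ
  set A := nthRootsFinset p (1 : 𝓞 K) with hA
  have hcard : A.card = p := hζ'.card_nthRootsFinset
  have hprod : ∏ η ∈ A, (x + η * y) = ε * (π ^ M * z) ^ p := by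
    rw [← e, hζ'.pow_add_pow_eq_prod_add_mul x y hodd]
  -- all factors are divisible by `π`
  have hdiv : ∀ η ∈ A, π ∣ x + η * y := by
    have h1 : π ∣ ∏ η ∈ A, (x + η * y) := by
      rw [hprod, mul_pow, ← pow_mul]
      exact Dvd.dvd.mul_left (Dvd.dvd.mul_right (dvd_pow_self _ (by positivity)) _) _
    obtain ⟨η₁, hη₁, h2⟩ := (hπ.dvd_finsetProd_iff _).1 h1
    intro η hη
    have h3 : π ∣ η - η₁ := by
      rw [← hπdef]; exact hζ'.sub_one_dvd_sub hp.out hη hη₁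
    have : x + η * y = (x + η₁ * y) + (η - η₁) * y := by ring
    rw [this]; exact dvd_add h2 (Dvd.dvd.mul_right h3 _)
  choose! a ha using hdiv
  -- differences of the `a η`
  have hdiff : ∀ η₁ ∈ A, ∀ η₂ ∈ A, η₁ ≠ η₂ → ∃ u : (𝓞 K)ˣ, a η₁ - a η₂ = u * y ∧
      η₂ * a η₁ - η₁ * a η₂ = - u * x := by
    intro η₁ h₁ η₂ h₂ hne
    obtain ⟨u, hu⟩ : Associated π (η₁ - η₂) := by
      rw [← hπdef]
      exact hζ'.nthRootsFinset_pairwise_associated_sub_one_sub_of_prime hp.out h₁ h₂ hne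
    refine ⟨u, ?_, ?_⟩
    · apply mul_left_cancel₀ hπ.ne_zero
      rw [mul_sub, ← ha η₁ h₁, ← ha η₂ h₂, ← mul_assoc, hu]; ring
    · apply mul_left_cancel₀ hπ.ne_zero
      have h1 : π * (η₂ * a η₁ - η₁ * a η₂) = η₂ * (π * a η₁) - η₁ * (π * a η₂) := by ring
      have h2 : π * (-↑u * x) = -((π * u) * x) := by ring
      rw [h1, h2, ← ha η₁ h₁, ← ha η₂ h₂, hu]; ring
  have hndvd : ∀ η₁ ∈ A, ∀ η₂ ∈ A, η₁ ≠ η₂ → ¬ π ∣ a η₁ - a η₂ := by
    intro η₁ h₁ η₂ h₂ hne h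
    obtain ⟨u, hu, -⟩ := hdiff η₁ h₁ η₂ h₂ hne
    rw [hu] at h
    exact hy ((hπ.dvd_or_dvd h).resolve_left
      (fun h' => hπ.not_isUnit (isUnit_of_dvd_unit h' u.isUnit)))
  have hcop : ∀ η₁ ∈ A, ∀ η₂ ∈ A, η₁ ≠ η₂ → IsCoprime (a η₁) (a η₂) := by
    intro η₁ h₁ η₂ h₂ hne
    obtain ⟨u, hu1, hu2⟩ := hdiff η₁ h₁ η₂ h₂ hne
    obtain ⟨r, s, hrs⟩ := hxy
    refine ⟨(s - r * η₂) * ↑u⁻¹, (r * η₁ - s) * ↑u⁻¹, ?_⟩
    have h1 : (s - r * η₂) * ↑u⁻¹ * a η₁ + (r * η₁ - s) * ↑u⁻¹ * a η₂ =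
        ↑u⁻¹ * (s * (a η₁ - a η₂) - r * (η₂ * a η₁ - η₁ * a η₂)) := by ring
    rw [h1, hu1, hu2]
    have h2 : (↑u⁻¹ : 𝓞 K) * (s * (↑u * y) - r * (-↑u * x)) = (↑u⁻¹ * ↑u) * (r * x + s * y) := by
      ring
    rw [h2, hrs, Units.inv_mul, one_mul]
  -- pigeonhole: some `a η₀` is divisible by `π`
  have hex : ∃ η₀ ∈ A, π ∣ a η₀ := by
    have : Finite (𝓞 K ⧸ Ideal.span {π}) := by
      rw [← hπdef]; exact hζ.finite_quotient_toInteger_sub_one hp.out.one_lt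
    have hcardq : Nat.card (𝓞 K ⧸ Ideal.span {π}) = p := by
      rw [← hπdef, hζ.card_quotient_toInteger_sub_one,
        hζ.norm_toInteger_sub_one_of_prime_ne_two' hp2]
      simp
    let f : A → 𝓞 K ⧸ Ideal.span {π} := fun η => Ideal.Quotient.mk _ (a η.1)
    have hinj : Function.Injective f := by
      intro η₁ η₂ h
      by_contra hne
      have h' : (η₁ : 𝓞 K) ≠ η₂ := fun h'' => hne (Subtype.ext h'')
      apply hndvd η₁ η₁.2 η₂ η₂.2 h'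
      rw [← Ideal.mem_span_singleton, ← Ideal.Quotient.mk_eq_mk_iff_sub_mem]
      exact h
    have hbij : Function.Bijective f :=
      hinj.bijective_of_nat_card_le (by rw [hcardq]; simp [hcard])
    obtain ⟨η₀, hη₀⟩ := hbij.2 0
    refine ⟨η₀, η₀.2, ?_⟩
    rw [← Ideal.Quotient.eq_zero_iff_dvd]
    exact hη₀
  obtain ⟨η₀, hη₀, hη₀dvd⟩ := hex
  have hother : ∀ η ∈ A, η ≠ η₀ → ¬ π ∣ a η := by
    intro η hη hne h
    exact hndvd η hη η₀ hη₀ hne (dvd_sub h hη₀dvd)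
  -- the product of the `a η`
  have hproda : ∏ η ∈ A, a η = ε * (π ^ (M - 1) * z) ^ p := by
    apply mul_left_cancel₀ (pow_ne_zero p hπ.ne_zero)
    have h1 : π ^ p * ∏ η ∈ A, a η = ∏ η ∈ A, (x + η * y) := by
      conv_lhs => rw [← hcard, ← Finset.prod_const, ← Finset.prod_mul_distrib]
      exact Finset.prod_congr rfl (fun η hη => (ha η hη).symm)
    rw [h1, hprod]
    obtain ⟨M', rfl⟩ : ∃ M', M = M' + 1 := ⟨M - 1, by omega⟩
    simp only [Nat.add_sub_cancel]; ring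
  have hsplit : a η₀ * ∏ η ∈ A.erase η₀, a η = ε * (π ^ (M - 1) * z) ^ p := by
    rw [Finset.mul_prod_erase A a hη₀, hproda]
  have hB : ¬ π ∣ ∏ η ∈ A.erase η₀, a η := by
    rw [hπ.dvd_finsetProd_iff]; push Not
    intro η hη; exact hother η (Finset.mem_of_mem_erase hη) (Finset.ne_of_mem_erase hη)
  have hpow : π ^ ((M - 1) * p) ∣ a η₀ := by
    apply hπ.pow_dvd_of_dvd_mul_right _ hB
    rw [hsplit, mul_pow, ← pow_mul]
    exact Dvd.dvd.mul_left (Dvd.intro _ rfl) _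
  obtain ⟨b₀, hb₀⟩ := hpow
  have hb₀B : b₀ * ∏ η ∈ A.erase η₀, a η = ε * z ^ p := by
    apply mul_left_cancel₀ (pow_ne_zero ((M - 1) * p) hπ.ne_zero)
    rw [← mul_assoc, ← hb₀, hsplit]; ring
  have hb₀π : ¬ π ∣ b₀ := by
    intro h
    have h1 : π ∣ (ε : 𝓞 K) * z ^ p := hb₀B ▸ Dvd.dvd.mul_right h _
    rcases hπ.dvd_or_dvd h1 with h | h
    · exact hπ.not_isUnit (isUnit_of_dvd_unit h ε.isUnit)
    · exact hz (hπ.dvd_of_dvd_pow h)
  have hM2 : 2 ≤ M := by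
    by_contra hlt
    have hM1 : M = 1 := by omega
    subst hM1
    simp only [Nat.sub_self, zero_mul, pow_zero, one_mul] at hb₀
    exact hb₀π (hb₀ ▸ hη₀dvd)
  refine ⟨hM2, ?_⟩
  -- `b₀` is associated to a `p`-th power
  have hcop₀ : IsCoprime b₀ (∏ η ∈ A.erase η₀, a η) := by
    apply IsCoprime.prod_right
    intro η hη
    have h1 := hcop η₀ hη₀ η (Finset.mem_of_mem_erase hη) (Finset.ne_of_mem_erase hη).symm
    rw [hb₀] at h1
    exact h1.of_mul_left_right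
  obtain ⟨c₀, u₀, hc₀⟩ := exists_associated_pow_of_associated_pow_mul hcop₀ (k := p) (c := z)
    (by rw [hb₀B]; exact (associated_unit_mul_left _ _ ε.isUnit).symm)
  have hpowη : ∀ η ∈ A, η ≠ η₀ → ∃ c : 𝓞 K, Associated (c ^ p) (a η) := by
    intro η hη hne
    have hmem : η ∈ A.erase η₀ := Finset.mem_erase.2 ⟨hne, hη⟩
    have h1 : a η * (b₀ * ∏ η' ∈ (A.erase η₀).erase η, a η') = ε * z ^ p := by
      rw [← hb₀B, ← Finset.mul_prod_erase (A.erase η₀) a hmem]; ring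
    have h2 : IsCoprime (a η) (b₀ * ∏ η' ∈ (A.erase η₀).erase η, a η') := by
      apply IsCoprime.mul_right
      · have h3 := hcop η hη η₀ hη₀ hne
        rw [hb₀] at h3
        exact h3.of_mul_right_right
      · apply IsCoprime.prod_right
        intro η' hη'
        have h3 := Finset.mem_of_mem_erase hη'
        exact hcop η hη η' (Finset.mem_of_mem_erase h3) (Finset.ne_of_mem_erase hη').symm
    exact exists_associated_pow_of_associated_pow_mul h2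
      (by rw [h1]; exact (associated_unit_mul_left _ _ ε.isUnit).symm)
  obtain ⟨η₁, hη₁, η₂, hη₂, h12⟩ := Finset.one_lt_card.1
    (by rw [Finset.card_erase_of_mem hη₀, hcard]; omega : 1 < (A.erase η₀).card)
  have hη₁A := Finset.mem_of_mem_erase hη₁
  have hη₁ne := Finset.ne_of_mem_erase hη₁
  have hη₂A := Finset.mem_of_mem_erase hη₂
  have hη₂ne := Finset.ne_of_mem_erase hη₂
  obtain ⟨c₁, u₁, hc₁⟩ := hpowη η₁ hη₁A hη₁ne
  obtain ⟨c₂, u₂, hc₂⟩ := hpowη η₂ hη₂A hη₂ne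
  -- the units relating differences of roots of unity to `π`
  obtain ⟨w₀, hw₀⟩ : Associated π (η₁ - η₂) := by
    rw [← hπdef]
    exact hζ'.nthRootsFinset_pairwise_associated_sub_one_sub_of_prime hp.out hη₁A hη₂A h12
  obtain ⟨w₁, hw₁⟩ : Associated π (η₂ - η₀) := by
    rw [← hπdef]
    exact hζ'.nthRootsFinset_pairwise_associated_sub_one_sub_of_prime hp.out hη₂A hη₀ hη₂ne
  obtain ⟨w₂, hw₂⟩ : Associated π (η₀ - η₁) := by
    rw [← hπdef]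
    exact hζ'.nthRootsFinset_pairwise_associated_sub_one_sub_of_prime hp.out hη₀ hη₁A hη₁ne.symm
  have hlin : (w₀ : 𝓞 K) * a η₀ + w₁ * a η₁ + w₂ * a η₂ = 0 := by
    apply mul_left_cancel₀ (pow_ne_zero 2 hπ.ne_zero)
    have h1 : π ^ 2 * ((w₀ : 𝓞 K) * a η₀ + w₁ * a η₁ + w₂ * a η₂) =
        (π * w₀) * (π * a η₀) + (π * w₁) * (π * a η₁) + (π * w₂) * (π * a η₂) := by ring
    rw [h1, hw₀, hw₁, hw₂, ← ha η₀ hη₀, ← ha η₁ hη₁A, ← ha η₂ hη₂A]; ring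
  -- the new equation
  have hnew : c₁ ^ p + ((w₂ * u₂ * (w₁ * u₁)⁻¹ : (𝓞 K)ˣ) : 𝓞 K) * c₂ ^ p =
      ((-(w₀ * u₀ * (w₁ * u₁)⁻¹) : (𝓞 K)ˣ) : 𝓞 K) * (π ^ (M - 1) * c₀) ^ p := by
    have h1 : ((w₁ * u₁ : (𝓞 K)ˣ) : 𝓞 K) * (c₁ ^ p + ((w₂ * u₂ * (w₁ * u₁)⁻¹ : (𝓞 K)ˣ) : 𝓞 K) * c₂ ^ p) =
        (w₁ : 𝓞 K) * (c₁ ^ p * u₁) + w₂ * (c₂ ^ p * u₂) := by
      have h2 : ((w₁ * u₁ : (𝓞 K)ˣ) : 𝓞 K) * ((w₂ * u₂ * (w₁ * u₁)⁻¹ : (𝓞 K)ˣ) : 𝓞 K) =
          ((w₂ * u₂ : (𝓞 K)ˣ) : 𝓞 K) := by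
        rw [← Units.val_mul]; congr 1; rw [mul_comm, inv_mul_cancel_right]
      rw [mul_add, ← mul_assoc, h2]; push_cast; ring
    have h3 : ((w₁ * u₁ : (𝓞 K)ˣ) : 𝓞 K) * (((-(w₀ * u₀ * (w₁ * u₁)⁻¹) : (𝓞 K)ˣ) : 𝓞 K) *
        (π ^ (M - 1) * c₀) ^ p) = -((w₀ : 𝓞 K) * (π ^ ((M - 1) * p) * (c₀ ^ p * u₀))) := by
      have h4 : ((w₁ * u₁ : (𝓞 K)ˣ) : 𝓞 K) * ((-(w₀ * u₀ * (w₁ * u₁)⁻¹) : (𝓞 K)ˣ) : 𝓞 K) =
          -((w₀ * u₀ : (𝓞 K)ˣ) : 𝓞 K) := by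
        rw [Units.val_neg, mul_neg, ← Units.val_mul]; congr 2; rw [mul_comm, inv_mul_cancel_right]
      rw [← mul_assoc, h4]; push_cast; ring
    apply mul_left_cancel₀ (w₁ * u₁ : (𝓞 K)ˣ).ne_zero
    rw [h1, h3, hc₁, hc₂, hc₀, ← hb₀]
    linear_combination hlin
  set u : (𝓞 K)ˣ := w₂ * u₂ * (w₁ * u₁)⁻¹ with hu
  -- `u` is congruent to an integer mod `p`
  have hπc₂ : ¬ π ∣ c₂ := by
    intro h
    apply hother η₂ hη₂A hη₂ne
    rw [← hc₂]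
    exact Dvd.dvd.mul_right (dvd_pow h hp.out.ne_zero) _
  have hπc₀ : ¬ π ∣ c₀ := by
    intro h
    apply hb₀π
    rw [← hc₀]
    exact Dvd.dvd.mul_right (dvd_pow h hp.out.ne_zero) _
  have hpdvd : (p : 𝓞 K) ∣ c₁ ^ p + (u : 𝓞 K) * c₂ ^ p := by
    rw [hnew]
    apply Dvd.dvd.mul_left
    rw [mul_pow, ← pow_mul]
    apply Dvd.dvd.mul_right
    refine hpass.symm.dvd.trans (pow_dvd_pow _ ?_)
    have h1 : 1 ≤ M - 1 := by omega
    calc p - 1 ≤ 1 * p := by omega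
      _ ≤ (M - 1) * p := Nat.mul_le_mul_right p h1
  have hcopp : IsCoprime c₂ (p : 𝓞 K) := by
    have h1 : IsCoprime π c₂ := (hπ.irreducible.coprime_iff_not_dvd).2 hπc₂
    exact (h1.symm.pow_right (n := p - 1)).of_isCoprime_of_dvd_right hpass.symm.dvd
  obtain ⟨d, e', hde⟩ := hcopp
  obtain ⟨n, hn⟩ := exists_int_sub_pow_prime_dvd hζ (d * c₁)
  have hdc : (p : 𝓞 K) ∣ (d * c₂) ^ p - 1 := by
    have h1 : d * c₂ - 1 ∣ (d * c₂) ^ p - 1 ^ p := sub_dvd_pow_sub_pow _ _ _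
    rw [one_pow] at h1
    refine Dvd.dvd.trans ⟨-e', ?_⟩ h1
    linear_combination hde
  have hcong : ∃ n' : ℤ, (p : 𝓞 K) ∣ (u : 𝓞 K) - n' := by
    refine ⟨-n, ?_⟩
    have h1 : (u : 𝓞 K) - ((-n : ℤ) : 𝓞 K) = -(u * ((d * c₂) ^ p - 1)) +
        d ^ p * (c₁ ^ p + u * c₂ ^ p) - ((d * c₁) ^ p - n) := by
      push_cast; ring
    rw [h1]
    exact dvd_sub (dvd_add (dvd_neg.2 (Dvd.dvd.mul_left hdc _)) (Dvd.dvd.mul_left hpdvd _)) hn
  obtain ⟨v, hv⟩ := hKum u hcong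
  refine ⟨c₁, v * c₂, c₀, -(w₀ * u₀ * (w₁ * u₁)⁻¹), ?_, ?_, hπc₀, ?_⟩
  · have h1 := hcop η₁ hη₁A η₂ hη₂A h12
    rw [← hc₁, ← hc₂] at h1
    have h2 : IsCoprime (c₁ ^ p) (c₂ ^ p) := h1.of_mul_left_left.of_mul_right_left
    have h3 : IsCoprime c₁ c₂ := (IsCoprime.pow_iff hp.out.pos hp.out.pos).1 h2
    exact (isCoprime_mul_unit_left_right v.isUnit _ _).2 h3
  · intro h
    rcases hπ.dvd_or_dvd h with h | h
    · exact hπ.not_isUnit (isUnit_of_dvd_unit h v.isUnit)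
    · exact hπc₂ h
  · rw [← hnew, mul_pow, hv]; push_cast; ring


include hζ in
/-- No solution of the generalised Fermat equation in `𝓞 K` (infinite descent). -/
theorem no_solution [IsPrincipalIdealRing (𝓞 K)] (hp2 : p ≠ 2) (hKum : KummerProp p K) :
    ∀ (M : ℕ), 1 ≤ M → ∀ (x y z : 𝓞 K) (ε : (𝓞 K)ˣ), IsCoprime x y →
      ¬ (hζ.toInteger - 1) ∣ y → ¬ (hζ.toInteger - 1) ∣ z →
      x ^ p + y ^ p ≠ ε * ((hζ.toInteger - 1) ^ M * z) ^ p := by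
  intro M
  induction M with
  | zero => intro h; omega
  | succ M ih =>
    intro hM x y z ε hxy hy hz e
    obtain ⟨hM2, x', y', z', ε', hxy', hy', hz', e'⟩ :=
      descent_step hζ hp2 hKum hM hxy hy hz e
    exact ih (by omega) x' y' z' ε' hxy' hy' hz' (by simpa using e')

/-- **Case II of Fermat's Last Theorem** for an odd prime `p` such that the ring of integers of
the `p`-th cyclotomic field `K` is a PID satisfying Kummer's lemma. -/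
theorem caseII_of_pid_of_kummer (K : Type*) [Field K] [NumberField K]
    [IsCyclotomicExtension {p} ℚ K] [IsPrincipalIdealRing (𝓞 K)] (hp2 : p ≠ 2)
    (hKum : KummerProp p K) :
    ∀ x y z : ℤ, IsCoprime x y → z ≠ 0 → (p : ℤ) ∣ z → x ^ p + y ^ p + z ^ p ≠ 0 := by
  intro x y z hxy hz0 hpz h
  obtain ⟨ζ, hζ⟩ := IsCyclotomicExtension.exists_isPrimitiveRoot ℚ K (Set.mem_singleton p)
    hp.out.ne_zero
  have hpp : Prime (p : ℤ) := Nat.prime_iff_prime_int.1 hp.out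
  have hodd : Odd p := hp.out.odd_of_ne_two hp2
  obtain ⟨k, z', hz', rfl⟩ : ∃ k z', ¬ (p : ℤ) ∣ z' ∧ z = (p : ℤ) ^ k * z' :=
    WfDvdMonoid.max_power_factor hz0 hpp.irreducible
  have hk : 1 ≤ k := by
    rcases Nat.eq_zero_or_pos k with rfl | hk
    · simp only [pow_zero, one_mul] at hpz
      exact absurd hpz hz'
    · exact hk
  have hpy : ¬ (p : ℤ) ∣ y := by
    intro hy
    have h1 : (p : ℤ) ∣ x ^ p := by
      have h2 : x ^ p = -(y ^ p + ((p : ℤ) ^ k * z') ^ p) := by linarith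
      rw [h2, dvd_neg]
      exact dvd_add (dvd_pow hy hp.out.ne_zero)
        (dvd_pow (Dvd.dvd.mul_right (dvd_pow_self _ (by omega)) _) hp.out.ne_zero)
    exact hpp.not_isUnit (hxy.isUnit_of_dvd' (hpp.dvd_of_dvd_pow h1) hy)
  obtain ⟨w, hw⟩ := IsCyclotomicExtension.Rat.associated_zeta_sub_one_pow_prime p hζ
  refine no_solution hζ hp2 hKum ((p - 1) * k)
    (Nat.mul_pos (by have := hp.out.two_le; omega) hk) (x : 𝓞 K) (y : 𝓞 K)
    ((-z' : ℤ) : 𝓞 K) (w ^ (k * p)) hxy.intCast ?_ ?_ ?_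
  · rwa [IsCyclotomicExtension.Rat.zeta_sub_one_dvd_intCast_iff' p hζ]
  · rwa [IsCyclotomicExtension.Rat.zeta_sub_one_dvd_intCast_iff' p hζ, dvd_neg]
  · have h1 : (x : 𝓞 K) ^ p + (y : 𝓞 K) ^ p = (((p : ℤ) ^ k * (-z') : ℤ) : 𝓞 K) ^ p := by
      have h2 : x ^ p + y ^ p = ((p : ℤ) ^ k * (-z')) ^ p := by
        have h3 : ((p : ℤ) ^ k * (-z')) ^ p = -((p : ℤ) ^ k * z') ^ p := by
          rw [mul_neg, hodd.neg_pow]
        rw [h3]; linarith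
      exact_mod_cast congrArg (Int.cast : ℤ → 𝓞 K) h2
    rw [h1]
    push_cast
    rw [← hw]
    ring

end Fermat.Agent.S10.CaseIIDescent
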