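/-
Kummer's lemma by explicit "triangular" units: abstract congruence lemma.
-/
import Mathlib

set_option autoImplicit false

namespace Fermat.Agent.S10

/-- Abstract hypotheses on a domain `R`, an element `π` and a prime `p` (modelled on
`R = ℤ[ζ_p]`, `π = ζ_p - 1`). -/
structure KSetup (R : Type*) [CommRing R] (π : R) (p : ℕ) : Prop where
  prime_p : p.Prime
  pi_prime : Prime π
  pow_dvd_p : π ^ (p - 1) ∣ (p : R)
  dvd_int : ∀ n : ℤ, π ∣ (n : R) → (p : ℤ) ∣ n
  pow_p : ∀ x : R, ∃ n : ℤ, (p : R) ∣ x ^ p - n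

lemma one_add_pow_of_sq_eq_zero {A : Type*} [CommRing A] {x : A} (hx : x ^ 2 = 0) (n : ℕ) :
    (1 + x) ^ n = 1 + n * x := by
  induction n with
  | zero => simp
  | succ n ih =>
    rw [pow_succ, ih]
    push_cast
    linear_combination (n : A) * hx

variable {R : Type*} [CommRing R] [IsDomain R] {π : R} {p : ℕ}

theorem triangular_aux (h : KSetup R π p) {ι : Type*} [Fintype ι] [DecidableEq ι]
    (d : ι → R) (hdu : ∀ i, IsUnit (d i)) (k : ι → ℕ) (a s : ι → ℤ)
    (hk : Function.Injective k) (hk1 : ∀ i, 1 ≤ k i) (hkp : ∀ i, k i + 1 ≤ p - 1)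
    (hs : ∀ i, ¬ (p : ℤ) ∣ s i)
    (hd : ∀ i, π ^ (k i + 1) ∣ d i - a i * (1 + s i * π ^ k i))
    (n : ι → ℕ) (m : ℤ) (hm : (p : R) ∣ ∏ i, d i ^ n i - m) : ∀ i, p ∣ n i := by
  classical
  by_contra hcon
  push Not at hcon
  obtain ⟨j, hj⟩ := hcon
  have hne : (Finset.univ.filter fun i => ¬ p ∣ n i).Nonempty := ⟨j, by simp [hj]⟩
  obtain ⟨i0, hi0, hmin⟩ := Finset.exists_min_image _ k hne
  simp only [Finset.mem_filter, Finset.mem_univ, true_and] at hi0 hmin
  set K := k i0 with hK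
  have hπ0 : π ≠ 0 := h.pi_prime.ne_zero
  have hK1 : 1 ≤ K := hk1 i0
  -- π^(K+1) ∣ p
  have hpow_p : π ^ (K + 1) ∣ (p : R) :=
    (pow_dvd_pow π (hkp i0)).trans h.pow_dvd_p
  let I : Ideal R := Ideal.span {π ^ (K + 1)}
  let q := Ideal.Quotient.mk I
  have hq0 : ∀ x : R, π ^ (K + 1) ∣ x → q x = 0 := fun x hx =>
    Ideal.Quotient.eq_zero_iff_mem.2 (Ideal.mem_span_singleton.2 hx)
  have hq0' : ∀ x : R, q x = 0 → π ^ (K + 1) ∣ x := fun x hx =>
    Ideal.mem_span_singleton.1 (Ideal.Quotient.eq_zero_iff_mem.1 hx)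
  have hqp : q (p : R) = 0 := hq0 _ hpow_p
  have ht : q π ^ (K + 1) = 0 := by rw [← map_pow]; exact hq0 _ dvd_rfl
  -- per-index congruences
  have key : ∀ i, ∃ c : ℤ, q (d i ^ n i) =
      (c : R ⧸ I) * (if i = i0 then 1 + (n i0 : R ⧸ I) * (s i0 : R ⧸ I) * q π ^ K else 1) := by
    intro i
    by_cases hi : i = i0
    · subst hi
      refine ⟨a i ^ n i, ?_⟩
      have h1 : q (d i) = (a i : R ⧸ I) * (1 + (s i : R ⧸ I) * q π ^ K) := by
        have := hq0 _ (hd i)
        rw [map_sub, sub_eq_zero] at this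
        rw [this]
        simp [hK]
      have hx : ((s i : R ⧸ I) * q π ^ K) ^ 2 = 0 := by
        rw [mul_pow, ← pow_mul]
        have : K * 2 = (K + 1) + (K - 1) := by omega
        rw [this, pow_add, ht]
        ring
      rw [if_pos rfl, map_pow, h1, mul_pow, one_add_pow_of_sq_eq_zero hx]
      push_cast
      ring
    · simp only [if_neg hi, mul_one]
      by_cases hpi : p ∣ n i
      · obtain ⟨e, he⟩ := hpi
        obtain ⟨c, hc⟩ := h.pow_p (d i ^ e)
        refine ⟨c, ?_⟩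
        have h2 : q ((d i ^ e) ^ p - c) = 0 := by
          obtain ⟨w, hw⟩ := hc
          rw [hw, map_mul, hqp, zero_mul]
        rw [map_sub, sub_eq_zero] at h2
        rw [he, mul_comm, pow_mul, h2]
        simp
      · refine ⟨a i ^ n i, ?_⟩
        have hki : K + 1 ≤ k i := by
          have h3 := hmin i hpi
          have h4 : k i ≠ K := fun h5 => hi (hk (h5.trans hK))
          omega
        have h1 : q (d i) = (a i : R ⧸ I) := by
          have h5 := hq0 _ ((pow_dvd_pow π (by omega : K + 1 ≤ k i + 1)).trans (hd i))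
          have h6 : q (π ^ k i) = 0 := hq0 _ (pow_dvd_pow π hki)
          rw [map_sub, sub_eq_zero] at h5
          rw [h5]
          simp [h6]
        rw [map_pow, h1]
        push_cast
        rfl
  choose c hc using key
  set C : ℤ := ∏ i, c i with hC
  have hprod : q (∏ i, d i ^ n i) =
      (C : R ⧸ I) * (1 + (n i0 : R ⧸ I) * (s i0 : R ⧸ I) * q π ^ K) := by
    rw [map_prod, Finset.prod_congr rfl (fun i _ => hc i), Finset.prod_mul_distrib,
      Finset.prod_ite_eq' Finset.univ i0]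
    simp [hC]
  -- back in R
  have hR1 : π ^ (K + 1) ∣ ∏ i, d i ^ n i - (C : R) * (1 + (n i0 : R) * (s i0 : R) * π ^ K) := by
    apply hq0'
    rw [map_sub, hprod]
    simp
  have hR2 : π ^ (K + 1) ∣ ∏ i, d i ^ n i - (m : R) := hpow_p.trans hm
  have hR3 : π ^ (K + 1) ∣ (m : R) - (C : R) * (1 + (n i0 : R) * (s i0 : R) * π ^ K) := by
    have := dvd_sub hR1 hR2
    convert this using 1
    ring
  have hπK : π ∣ π ^ K := dvd_pow_self π (by omega)
  have hπK1 : π ∣ π ^ (K + 1) := dvd_pow_self π (by omega)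
  have h4 : π ∣ ((m - C : ℤ) : R) := by
    have h5 : π ∣ (m : R) - (C : R) * (1 + (n i0 : R) * (s i0 : R) * π ^ K) := hπK1.trans hR3
    have h6 : π ∣ (C : R) * ((n i0 : R) * (s i0 : R) * π ^ K) :=
      Dvd.dvd.mul_left (Dvd.dvd.mul_left hπK _) _
    have := dvd_add h5 h6
    convert this using 1
    push_cast
    ring
  have h5 : (p : ℤ) ∣ m - C := h.dvd_int _ h4
  have h6 : π ^ (K + 1) ∣ ((m - C : ℤ) : R) := by
    obtain ⟨e, he⟩ := h5
    rw [he]
    push_cast
    exact Dvd.dvd.mul_right hpow_p _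
  have h7 : π ^ (K + 1) ∣ π ^ K * ((C * n i0 * s i0 : ℤ) : R) := by
    have := dvd_sub h6 hR3
    convert this using 1
    push_cast
    ring
  have h8 : π ∣ ((C * n i0 * s i0 : ℤ) : R) := by
    rw [pow_succ] at h7
    exact (mul_dvd_mul_iff_left (pow_ne_zero K hπ0)).1 h7
  have h9 : (p : ℤ) ∣ C * n i0 * s i0 := h.dvd_int _ h8
  have hpp : Prime (p : ℤ) := Nat.prime_iff_prime_int.1 h.prime_p
  rcases hpp.dvd_or_dvd h9 with h10 | h10
  · rcases hpp.dvd_or_dvd h10 with h11 | h11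
    · -- p ∣ C : contradiction with the product being a unit
      have h12 : π ∣ (C : R) := by
        obtain ⟨e, he⟩ := h11
        rw [he]
        push_cast
        exact Dvd.dvd.mul_right ((dvd_pow_self π (by have := hkp i0; omega)).trans h.pow_dvd_p) _
      have h13 : π ∣ ∏ i, d i ^ n i := by
        have := dvd_add (hπK1.trans hR1) (Dvd.dvd.mul_right h12 (1 + (n i0 : R) * (s i0 : R) * π ^ K))
        simpa using this
      have hunit : IsUnit (∏ i, d i ^ n i) := by
        rw [IsUnit.prod_univ_iff]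
        exact fun i => (hdu i).pow _
      exact h.pi_prime.not_isUnit (isUnit_of_dvd_unit h13 hunit)
    · exact hi0 (Int.natCast_dvd_natCast.1 h11)
  · exact hs i0 h10

end Fermat.Agent.S10
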