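/-
Kummer's lemma for the `p`-th cyclotomic field from explicit "triangular" units.
-/
import Mathlib
import Fermat.Agent.S10.KummerAbstract

set_option autoImplicit false
set_option linter.unusedSectionVars false

namespace Fermat.Agent.S10

open NumberField

/-- Kummer's lemma as a property of a number field `K` and a prime `p`: a unit congruent to a
rational integer modulo `p` is a `p`-th power. -/
def KummerProp (p : ℕ) (K : Type*) [Field K] [NumberField K] : Prop :=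
  ∀ u : (𝓞 K)ˣ, (∃ n : ℤ, (p : 𝓞 K) ∣ (u : 𝓞 K) - n) → ∃ v : (𝓞 K)ˣ, u = v ^ p

variable {p : ℕ} [hp : Fact p.Prime] {K : Type*} [Field K] [NumberField K]
  [hK : IsCyclotomicExtension {p} ℚ K] {ζ : K}

/-- Every `p`-th power in `ℤ[ζ_p]` is congruent to a rational integer modulo `p`. -/
lemma exists_int_pow_sub_dvd (hζ : IsPrimitiveRoot ζ p) (x : 𝓞 K) :
    ∃ n : ℤ, (p : 𝓞 K) ∣ x ^ p - n := by
  have htop := IsCyclotomicExtension.Rat.adjoin_singleton_eq_top hζ
  have hx : x ∈ Algebra.adjoin ℤ {hζ.toInteger} := by rw [htop]; trivial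
  induction hx using Algebra.adjoin_induction with
  | mem y hy =>
    rw [Set.mem_singleton_iff] at hy
    refine ⟨1, ?_⟩
    rw [hy, hζ.toInteger_isPrimitiveRoot.pow_eq_one]
    simp
  | algebraMap r =>
    refine ⟨r ^ p, ?_⟩
    simp
  | add y z _ _ hy hz =>
    obtain ⟨n, hn⟩ := hy
    obtain ⟨m, hm⟩ := hz
    obtain ⟨r, hr⟩ := exists_add_pow_prime_eq hp.out y z
    refine ⟨n + m, ?_⟩
    have : (y + z) ^ p - ((n + m : ℤ) : 𝓞 K) = (y ^ p - n) + (z ^ p - m) + p * (y * z * r) := by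
      rw [hr]; push_cast; ring
    rw [this]
    exact dvd_add (dvd_add hn hm) (Dvd.intro _ rfl)
  | mul y z _ _ hy hz =>
    obtain ⟨n, hn⟩ := hy
    obtain ⟨m, hm⟩ := hz
    refine ⟨n * m, ?_⟩
    have : (y * z) ^ p - ((n * m : ℤ) : 𝓞 K) = (y ^ p - n) * z ^ p + n * (z ^ p - m) := by
      push_cast; ring
    rw [this]
    exact dvd_add (Dvd.dvd.mul_right hn _) (Dvd.dvd.mul_left hm _)

lemma kSetup (hζ : IsPrimitiveRoot ζ p) : KSetup (𝓞 K) (hζ.toInteger - 1) p where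
  prime_p := hp.out
  pi_prime := hζ.zeta_sub_one_prime'
  pow_dvd_p := (IsCyclotomicExtension.Rat.associated_zeta_sub_one_pow_prime p hζ).dvd
  dvd_int := fun _ hn => (IsCyclotomicExtension.Rat.zeta_sub_one_dvd_intCast_iff' p hζ).1 hn
  pow_p := exists_int_pow_sub_dvd hζ

variable (p K) in
/-- The subgroup of `p`-th powers of units. -/
def unitPowSubgroup : Subgroup (𝓞 K)ˣ := (powMonoidHom p : (𝓞 K)ˣ →* (𝓞 K)ˣ).range

variable (p K) in
/-- Units modulo `p`-th powers, written additively. -/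
def UnitQuot : Type _ := Additive ((𝓞 K)ˣ ⧸ unitPowSubgroup p K)

noncomputable instance : AddCommGroup (UnitQuot p K) :=
  inferInstanceAs (AddCommGroup (Additive ((𝓞 K)ˣ ⧸ unitPowSubgroup p K)))

variable (p) in
/-- The class of a unit modulo `p`-th powers. -/
def ucls (u : (𝓞 K)ˣ) : UnitQuot p K := Additive.ofMul (QuotientGroup.mk u)

lemma ucls_surjective : Function.Surjective (ucls p : (𝓞 K)ˣ → UnitQuot p K) := by
  intro v
  obtain ⟨u, hu⟩ := QuotientGroup.mk_surjective (s := unitPowSubgroup p K) (Additive.toMul v)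
  exact ⟨u, by rw [ucls, hu]; rfl⟩

@[simp] lemma ucls_mul (u v : (𝓞 K)ˣ) : ucls p (u * v) = ucls p u + ucls p v := rfl

@[simp] lemma ucls_one : ucls p (1 : (𝓞 K)ˣ) = 0 := rfl

lemma ucls_pow (u : (𝓞 K)ˣ) (n : ℕ) : ucls p (u ^ n) = n • ucls p u := by
  induction n with
  | zero => simp
  | succ n ih => rw [pow_succ, ucls_mul, ih, succ_nsmul]

lemma ucls_inv (u : (𝓞 K)ˣ) : ucls p u⁻¹ = - ucls p u := by
  rw [eq_neg_iff_add_eq_zero, ← ucls_mul, inv_mul_cancel, ucls_one]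

lemma ucls_zpow (u : (𝓞 K)ˣ) (n : ℤ) : ucls p (u ^ n) = n • ucls p u := by
  cases n with
  | ofNat n => simp [ucls_pow]
  | negSucc n => rw [zpow_negSucc, ucls_inv, ucls_pow, negSucc_zsmul]

lemma ucls_prod {ι : Type*} (s : Finset ι) (f : ι → (𝓞 K)ˣ) :
    ucls p (∏ i ∈ s, f i) = ∑ i ∈ s, ucls p (f i) := by
  classical
  induction s using Finset.induction_on with
  | empty => simp
  | insert a s ha ih => rw [Finset.prod_insert ha, Finset.sum_insert ha, ucls_mul, ih]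

lemma ucls_eq_zero_iff (u : (𝓞 K)ˣ) : ucls p u = 0 ↔ ∃ w : (𝓞 K)ˣ, u = w ^ p := by
  have : ucls p u = 0 ↔ (QuotientGroup.mk u : (𝓞 K)ˣ ⧸ unitPowSubgroup p K) = 1 := Iff.rfl
  rw [this, QuotientGroup.eq_one_iff]
  constructor
  · rintro ⟨w, hw⟩
    exact ⟨w, hw.symm⟩
  · rintro ⟨w, hw⟩
    exact ⟨w, hw.symm⟩

lemma unitQuot_nsmul (x : UnitQuot p K) : p • x = 0 := by
  obtain ⟨u, rfl⟩ := ucls_surjective x
  rw [← ucls_pow, ucls_eq_zero_iff]
  exact ⟨u, rfl⟩

noncomputable instance : Module (ZMod p) (UnitQuot p K) :=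
  AddCommGroup.zmodModule unitQuot_nsmul

lemma zmod_smul_eq (c : ZMod p) (v : UnitQuot p K) : c • v = c.val • v := by
  conv_lhs => rw [← ZMod.natCast_zmod_val c]
  exact Nat.cast_smul_eq_nsmul (ZMod p) c.val v

lemma sum_smul_ucls {ι : Type*} [Fintype ι] (c : ι → ZMod p) (d : ι → (𝓞 K)ˣ) :
    ∑ i, c i • ucls p (d i) = ucls p (∏ i, d i ^ (c i).val) := by
  rw [ucls_prod]
  refine Finset.sum_congr rfl fun i _ => ?_
  rw [zmod_smul_eq, ucls_pow]

/-- The unit `ζ` of `𝓞 K`. -/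
noncomputable def zetaUnit (hζ : IsPrimitiveRoot ζ p) : (𝓞 K)ˣ :=
  (hζ.toInteger_isPrimitiveRoot.isUnit (NeZero.ne p)).unit

@[simp] lemma zetaUnit_val (hζ : IsPrimitiveRoot ζ p) :
    ((zetaUnit hζ : (𝓞 K)ˣ) : 𝓞 K) = hζ.toInteger := rfl

lemma ucls_neg_one (hp2 : p ≠ 2) : ucls p (-1 : (𝓞 K)ˣ) = 0 := by
  rw [ucls_eq_zero_iff]
  refine ⟨-1, ?_⟩
  rw [(hp.out.odd_of_ne_two hp2).neg_one_pow]

lemma ucls_torsion_mem (hζ : IsPrimitiveRoot ζ p) (hp2 : p ≠ 2) (t : (𝓞 K)ˣ)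
    (ht : t ∈ Units.torsion K) :
    ucls p t ∈ Submodule.span (ZMod p) {ucls p (zetaUnit hζ)} := by
  have hfin : IsOfFinOrder t := (CommGroup.mem_torsion t).1 ht
  obtain ⟨n, hn0, hn⟩ := isOfFinOrder_iff_pow_eq_one.1 hfin
  have hfinK : IsOfFinOrder (((t : 𝓞 K) : K)) := by
    rw [isOfFinOrder_iff_pow_eq_one]
    refine ⟨n, hn0, ?_⟩
    have h1 : ((t ^ n : (𝓞 K)ˣ) : 𝓞 K) = 1 := by rw [hn]; rfl
    have h2 := congrArg (fun x : 𝓞 K => (x : K)) h1
    simpa using h2
  obtain ⟨r, -, hr⟩ := hζ.exists_pow_or_neg_mul_pow_of_isOfFinOrder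
    (hp.out.odd_of_ne_two hp2) hfinK
  have hmem : ucls p (zetaUnit hζ) ∈ Submodule.span (ZMod p) {ucls p (zetaUnit hζ)} :=
    Submodule.subset_span rfl
  have hz : (algebraMap (𝓞 K) K) hζ.toInteger = ζ := rfl
  rcases hr with hr | hr
  · have : t = zetaUnit hζ ^ r := by
      ext
      simpa [hz] using hr
    rw [this, ucls_pow, ← Nat.cast_smul_eq_nsmul (ZMod p)]
    exact Submodule.smul_mem _ _ hmem
  · have : t = (-1) * zetaUnit hζ ^ r := by
      ext
      simpa [hz] using hr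
    rw [this, ucls_mul, ucls_neg_one hp2, zero_add, ucls_pow, ← Nat.cast_smul_eq_nsmul (ZMod p)]
    exact Submodule.smul_mem _ _ hmem

/-- The generators of units modulo `p`-th powers. -/
noncomputable def unitGens (hζ : IsPrimitiveRoot ζ p) :
    Option (Fin (Units.rank K)) → UnitQuot p K :=
  fun o => o.elim (ucls p (zetaUnit hζ)) (fun i => ucls p (Units.fundSystem K i))

lemma span_unitGens (hζ : IsPrimitiveRoot ζ p) (hp2 : p ≠ 2) :
    Submodule.span (ZMod p) (Set.range (unitGens hζ)) = ⊤ := by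
  rw [eq_top_iff]
  rintro v -
  obtain ⟨x, rfl⟩ := ucls_surjective v
  obtain ⟨⟨t, e⟩, hx, -⟩ := Units.exist_unique_eq_mul_prod K x
  simp only at hx
  rw [hx, ucls_mul, ucls_prod]
  refine Submodule.add_mem _ ?_ (Submodule.sum_mem _ fun i _ => ?_)
  · refine Submodule.span_mono ?_ (ucls_torsion_mem hζ hp2 t t.2)
    rintro _ rfl
    exact ⟨none, rfl⟩
  · rw [ucls_zpow, ← Int.cast_smul_eq_zsmul (ZMod p)]
    exact Submodule.smul_mem _ _ (Submodule.subset_span ⟨some i, rfl⟩)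

lemma finite_unitQuot (hζ : IsPrimitiveRoot ζ p) (hp2 : p ≠ 2) :
    Module.Finite (ZMod p) (UnitQuot p K) := by
  rw [Module.finite_def, ← span_unitGens hζ hp2]
  exact Submodule.fg_span (Set.finite_range _)

lemma finrank_unitQuot_le (hζ : IsPrimitiveRoot ζ p) (hp2 : p ≠ 2) :
    Module.finrank (ZMod p) (UnitQuot p K) ≤ Units.rank K + 1 := by
  have h1 := finrank_range_le_card (R := ZMod p) (unitGens hζ)
  rw [Set.finrank, span_unitGens hζ hp2, finrank_top] at h1
  simpa using h1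

lemma rank_add_one (hp2 : 2 < p) : Units.rank K + 1 = (p - 1) / 2 := by
  have h1 := InfinitePlace.card_eq_nrRealPlaces_add_nrComplexPlaces K
  rw [IsCyclotomicExtension.Rat.nrRealPlaces_eq_zero K hp2,
    IsCyclotomicExtension.Rat.nrComplexPlaces_eq_totient_div_two p K,
    Nat.totient_prime hp.out, zero_add] at h1
  rw [Units.rank, h1]
  have : 1 ≤ (p - 1) / 2 := by omega
  omega

/-- **Kummer's lemma from explicit units**: if there are units `d j` with
`d j ≡ a j * (1 + s j * π ^ k j) mod π ^ (k j + 1)`, `π = ζ - 1`, with distinct exponents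
`2 ≤ k j ≤ p - 2`, `p ∤ s j`, and as many of them as the unit rank, then every unit congruent
to a rational integer modulo `p` is a `p`-th power. -/
theorem kummerProp_of_units (hζ : IsPrimitiveRoot ζ p) (hp2 : 2 < p) {ι : Type*} [Fintype ι]
    (hcard : (p - 1) / 2 ≤ Fintype.card ι + 1)
    (d : ι → (𝓞 K)ˣ) (k : ι → ℕ) (a s : ι → ℤ)
    (hk : Function.Injective k) (hk2 : ∀ j, 2 ≤ k j) (hkp : ∀ j, k j + 2 ≤ p)
    (hs : ∀ j, ¬ (p : ℤ) ∣ s j)
    (hd : ∀ j, (hζ.toInteger - 1) ^ (k j + 1) ∣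
      (d j : 𝓞 K) - a j * (1 + s j * (hζ.toInteger - 1) ^ k j)) :
    KummerProp p K := by
  classical
  have hp2' : p ≠ 2 := hp2.ne'
  have hS := kSetup hζ
  -- the extended family
  let D : Option ι → (𝓞 K)ˣ := fun o => o.elim (zetaUnit hζ) d
  let k' : Option ι → ℕ := fun o => o.elim 1 k
  let a' : Option ι → ℤ := fun o => o.elim 1 a
  let s' : Option ι → ℤ := fun o => o.elim 1 s
  have hk' : Function.Injective k' := by
    intro x y hxy
    cases x with
    | none =>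
      cases y with
      | none => rfl
      | some y => have := hk2 y; simp only [k', Option.elim] at hxy; omega
    | some x =>
      cases y with
      | none => have := hk2 x; simp only [k', Option.elim] at hxy; omega
      | some y => simp only [k', Option.elim] at hxy; rw [hk hxy]
  have hk1' : ∀ o, 1 ≤ k' o := by
    intro o
    cases o with
    | none => simp [k']
    | some j => have := hk2 j; simp only [k', Option.elim]; omega
  have hkp' : ∀ o, k' o + 1 ≤ p - 1 := by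
    intro o
    cases o with
    | none => simp only [k', Option.elim]; omega
    | some j => have := hkp j; simp only [k', Option.elim]; omega
  have hs' : ∀ o, ¬ (p : ℤ) ∣ s' o := by
    intro o
    cases o with
    | none =>
      simp only [s', Option.elim]
      intro h
      have := Int.natCast_dvd_natCast.1 (by simpa using h : ((p : ℕ) : ℤ) ∣ ((1 : ℕ) : ℤ))
      have := Nat.le_of_dvd one_pos this
      omega
    | some j => exact hs j
  have hd' : ∀ o, (hζ.toInteger - 1) ^ (k' o + 1) ∣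
      ((D o : (𝓞 K)ˣ) : 𝓞 K) - a' o * (1 + s' o * (hζ.toInteger - 1) ^ k' o) := by
    intro o
    cases o with
    | none =>
      simp only [D, k', a', s', Option.elim, zetaUnit_val]
      have : hζ.toInteger - ((1 : ℤ) : 𝓞 K) * (1 + ((1 : ℤ) : 𝓞 K) * (hζ.toInteger - 1) ^ 1) = 0 := by
        push_cast; ring
      rw [this]
      exact dvd_zero _
    | some j => exact hd j
  -- the congruence lemma for the extended family
  have hA : ∀ (n : Option ι → ℕ) (m : ℤ),
      (p : 𝓞 K) ∣ ((∏ o, D o ^ n o : (𝓞 K)ˣ) : 𝓞 K) - m → ∀ o, p ∣ n o := by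
    intro n m hm
    refine triangular_aux hS (fun o => ((D o : (𝓞 K)ˣ) : 𝓞 K)) (fun o => (D o).isUnit) k' a' s'
      hk' hk1' hkp' hs' hd' n m ?_
    convert hm using 2
    simp
  -- linear independence
  have hfin : Module.Finite (ZMod p) (UnitQuot p K) := finite_unitQuot hζ hp2'
  have hLI : LinearIndependent (ZMod p) (fun o => ucls p (D o)) := by
    rw [Fintype.linearIndependent_iff]
    intro c hc o
    rw [sum_smul_ucls, ucls_eq_zero_iff] at hc
    obtain ⟨w, hw⟩ := hc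
    obtain ⟨m, hm⟩ := exists_int_pow_sub_dvd hζ (w : 𝓞 K)
    have h1 := hA (fun o => (c o).val) m (by rw [hw]; simpa using hm) o
    rw [← ZMod.natCast_zmod_val (c o)]
    exact (ZMod.natCast_eq_zero_iff _ _).2 h1
  have hcard' : Fintype.card (Option ι) = Module.finrank (ZMod p) (UnitQuot p K) := by
    apply le_antisymm hLI.fintype_card_le_finrank
    have h1 := finrank_unitQuot_le (K := K) hζ hp2'
    rw [rank_add_one hp2] at h1
    rw [Fintype.card_option]
    omega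
  have hspan := hLI.span_eq_top_of_card_eq_finrank' hcard'
  -- the main argument
  intro u ⟨m, hm⟩
  have hu : ucls p u ∈ Submodule.span (ZMod p) (Set.range fun o => ucls p (D o)) := by
    rw [hspan]; trivial
  obtain ⟨c, hc⟩ := (Submodule.mem_span_range_iff_exists_fun (ZMod p)).1 hu
  rw [sum_smul_ucls] at hc
  -- u = ∏ D^n * w^p
  have h2 : ucls p (u * (∏ o, D o ^ (c o).val)⁻¹) = 0 := by
    rw [ucls_mul, ucls_inv, hc, add_neg_cancel]
  obtain ⟨w, hw⟩ := (ucls_eq_zero_iff _).1 h2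
  have h3 : ∏ o, D o ^ (c o).val = u * (w⁻¹) ^ p := by
    rw [inv_pow, ← hw]
    simp
  obtain ⟨m', hm'⟩ := exists_int_pow_sub_dvd hζ ((w⁻¹ : (𝓞 K)ˣ) : 𝓞 K)
  have h4 : (p : 𝓞 K) ∣ ((∏ o, D o ^ (c o).val : (𝓞 K)ˣ) : 𝓞 K) - ((m * m' : ℤ) : 𝓞 K) := by
    rw [h3]
    have : ((u * w⁻¹ ^ p : (𝓞 K)ˣ) : 𝓞 K) - ((m * m' : ℤ) : 𝓞 K) =
        ((u : 𝓞 K) - m) * ((w⁻¹ : (𝓞 K)ˣ) : 𝓞 K) ^ p + m * (((w⁻¹ : (𝓞 K)ˣ) : 𝓞 K) ^ p - m') := by
      push_cast; ring
    rw [this]
    exact dvd_add (Dvd.dvd.mul_right hm _) (Dvd.dvd.mul_left hm' _)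
  have h5 := hA (fun o => (c o).val) (m * m') h4
  have h6 : ∀ o, (c o).val = 0 := by
    intro o
    have := h5 o
    have hlt := ZMod.val_lt (c o)
    exact Nat.eq_zero_of_dvd_of_lt this hlt
  have h7 : ∏ o, D o ^ (c o).val = 1 := by
    apply Finset.prod_eq_one
    intro o _
    rw [h6 o, pow_zero]
  rw [h7] at hw
  exact ⟨w, by simpa using hw⟩

/-- The cyclotomic unit `1 + ζ + ⋯ + ζ ^ (a - 1)`. -/
noncomputable def geomUnit (hζ : IsPrimitiveRoot ζ p) (a : ℕ) (ha : a.Coprime p) : (𝓞 K)ˣ :=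
  (hζ.toInteger_isPrimitiveRoot.geom_sum_isUnit hp.out.two_le ha).unit

@[simp] lemma geomUnit_val (hζ : IsPrimitiveRoot ζ p) (a : ℕ) (ha : a.Coprime p) :
    ((geomUnit hζ a ha : (𝓞 K)ˣ) : 𝓞 K) = ∑ i ∈ Finset.range a, hζ.toInteger ^ i := rfl

end Fermat.Agent.S10
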