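/-
Kummer's lemma for explicit small primes, via explicit units (generated certificates).
-/
import Mathlib
import Fermat.Agent.S10.KummerUnits

set_option autoImplicit false

namespace Fermat.Agent.S10

open NumberField

lemma unitCong_5_1 {R : Type*} [CommRing R] (π : R) (h : π ^ 3 ∣ (5 : R)) :
    π ^ 3 ∣ (1 + π) ^ 2 * (2 + 1 * π) ^ 1 - 2 * (1 + 2 * π ^ 2) := by
  have e : (1 + π) ^ 2 * (2 + 1 * π) ^ 1 - 2 * (1 + 2 * π ^ 2) =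
      π ^ 3 * (1) + 5 * (1 * π) := by
    ring
  rw [e]
  exact dvd_add (dvd_mul_right _ _) (Dvd.dvd.mul_right h _)

lemma unitCong'_5_1 {R : Type*} [CommRing R] (z : R) (h : (z - 1) ^ 3 ∣ (5 : R)) :
    (z - 1) ^ (2 + 1) ∣ z ^ 2 * (∑ i ∈ Finset.range 2, z ^ i) ^ 1 - ((2 : ℤ) : R) * (1 + ((2 : ℤ) : R) * (z - 1) ^ 2) := by
  have h0 : z ^ 2 = (1 + (z - 1)) ^ 2 := by ring
  have h2 : ∑ i ∈ Finset.range 2, z ^ i = 2 + 1 * (z - 1) := by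
    simp only [Finset.sum_range_succ, Finset.sum_range_zero]; ring
  rw [h0, h2]
  push_cast
  exact unitCong_5_1 (z - 1) h

lemma unitCong_7_1 {R : Type*} [CommRing R] (π : R) (h : π ^ 3 ∣ (7 : R)) :
    π ^ 3 ∣ (1 + π) ^ 6 * (3 + 3 * π + 1 * π ^ 2) ^ 1 - 3 * (1 + 5 * π ^ 2) := by
  have e : (1 + π) ^ 6 * (3 + 3 * π + 1 * π ^ 2) ^ 1 - 3 * (1 + 5 * π ^ 2) =
      π ^ 3 * (111 + 120 * π + 83 * π ^ 2 + 36 * π ^ 3 + 9 * π ^ 4 + 1 * π ^ 5) + 7 * (3 * π + 7 * π ^ 2) := by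
    ring
  rw [e]
  exact dvd_add (dvd_mul_right _ _) (Dvd.dvd.mul_right h _)

lemma unitCong'_7_1 {R : Type*} [CommRing R] (z : R) (h : (z - 1) ^ 3 ∣ (7 : R)) :
    (z - 1) ^ (2 + 1) ∣ z ^ 6 * (∑ i ∈ Finset.range 3, z ^ i) ^ 1 - ((3 : ℤ) : R) * (1 + ((5 : ℤ) : R) * (z - 1) ^ 2) := by
  have h0 : z ^ 6 = (1 + (z - 1)) ^ 6 := by ring
  have h3 : ∑ i ∈ Finset.range 3, z ^ i = 3 + 3 * (z - 1) + 1 * (z - 1) ^ 2 := by
    simp only [Finset.sum_range_succ, Finset.sum_range_zero]; ring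
  rw [h0, h3]
  push_cast
  exact unitCong_7_1 (z - 1) h

lemma unitCong_7_2 {R : Type*} [CommRing R] (π : R) (h : π ^ 5 ∣ (7 : R)) :
    π ^ 5 ∣ (1 + π) ^ 5 * (2 + 1 * π) ^ 2 * (3 + 3 * π + 1 * π ^ 2) ^ 1 - 5 * (1 + 3 * π ^ 4) := by
  have e : (1 + π) ^ 5 * (2 + 1 * π) ^ 2 * (3 + 3 * π + 1 * π ^ 2) ^ 1 - 5 * (1 + 3 * π ^ 4) =
      π ^ 5 * (397 + 199 * π + 64 * π ^ 2 + 12 * π ^ 3 + 1 * π ^ 4) + 7 * (1 + 12 * π + 37 * π ^ 2 + 66 * π ^ 3 + 73 * π ^ 4) := by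
    ring
  rw [e]
  exact dvd_add (dvd_mul_right _ _) (Dvd.dvd.mul_right h _)

lemma unitCong'_7_2 {R : Type*} [CommRing R] (z : R) (h : (z - 1) ^ 5 ∣ (7 : R)) :
    (z - 1) ^ (4 + 1) ∣ z ^ 5 * (∑ i ∈ Finset.range 2, z ^ i) ^ 2 * (∑ i ∈ Finset.range 3, z ^ i) ^ 1 - ((5 : ℤ) : R) * (1 + ((3 : ℤ) : R) * (z - 1) ^ 4) := by
  have h0 : z ^ 5 = (1 + (z - 1)) ^ 5 := by ring
  have h2 : ∑ i ∈ Finset.range 2, z ^ i = 2 + 1 * (z - 1) := by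
    simp only [Finset.sum_range_succ, Finset.sum_range_zero]; ring
  have h3 : ∑ i ∈ Finset.range 3, z ^ i = 3 + 3 * (z - 1) + 1 * (z - 1) ^ 2 := by
    simp only [Finset.sum_range_succ, Finset.sum_range_zero]; ring
  rw [h0, h2, h3]
  push_cast
  exact unitCong_7_2 (z - 1) h

lemma unitCong_11_1 {R : Type*} [CommRing R] (π : R) (h : π ^ 3 ∣ (11 : R)) :
    π ^ 3 ∣ (1 + π) ^ 9 * (5 + 10 * π + 10 * π ^ 2 + 5 * π ^ 3 + 1 * π ^ 4) ^ 1 - 5 * (1 + 1 * π ^ 2) := by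
  have e : (1 + π) ^ 9 * (5 + 10 * π + 10 * π ^ 2 + 5 * π ^ 3 + 1 * π ^ 4) ^ 1 - 5 * (1 + 1 * π ^ 2) =
      π ^ 3 * (875 + 1876 * π + 2919 * π ^ 2 + 3396 * π ^ 3 + 2994 * π ^ 4 + 2001 * π ^ 5 + 1001 * π ^ 6 + 364 * π ^ 7 + 91 * π ^ 8 + 14 * π ^ 9 + 1 * π ^ 10) + 11 * (5 * π + 25 * π ^ 2) := by
    ring
  rw [e]
  exact dvd_add (dvd_mul_right _ _) (Dvd.dvd.mul_right h _)

lemma unitCong'_11_1 {R : Type*} [CommRing R] (z : R) (h : (z - 1) ^ 3 ∣ (11 : R)) :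
    (z - 1) ^ (2 + 1) ∣ z ^ 9 * (∑ i ∈ Finset.range 5, z ^ i) ^ 1 - ((5 : ℤ) : R) * (1 + ((1 : ℤ) : R) * (z - 1) ^ 2) := by
  have h0 : z ^ 9 = (1 + (z - 1)) ^ 9 := by ring
  have h5 : ∑ i ∈ Finset.range 5, z ^ i = 5 + 10 * (z - 1) + 10 * (z - 1) ^ 2 + 5 * (z - 1) ^ 3 + 1 * (z - 1) ^ 4 := by
    simp only [Finset.sum_range_succ, Finset.sum_range_zero]; ring
  rw [h0, h5]
  push_cast
  exact unitCong_11_1 (z - 1) h

lemma unitCong_11_2 {R : Type*} [CommRing R] (π : R) (h : π ^ 5 ∣ (11 : R)) :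
    π ^ 5 ∣ (1 + π) ^ 4 * (2 + 1 * π) ^ 1 * (3 + 3 * π + 1 * π ^ 2) ^ 1 - 6 * (1 + 9 * π ^ 4) := by
  have e : (1 + π) ^ 4 * (2 + 1 * π) ^ 1 * (3 + 3 * π + 1 * π ^ 2) ^ 1 - 6 * (1 + 9 * π ^ 4) =
      π ^ 5 * (35 + 9 * π + 1 * π ^ 2) + 11 * (3 * π + 7 * π ^ 2 + 9 * π ^ 3 + 2 * π ^ 4) := by
    ring
  rw [e]
  exact dvd_add (dvd_mul_right _ _) (Dvd.dvd.mul_right h _)

lemma unitCong'_11_2 {R : Type*} [CommRing R] (z : R) (h : (z - 1) ^ 5 ∣ (11 : R)) :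
    (z - 1) ^ (4 + 1) ∣ z ^ 4 * (∑ i ∈ Finset.range 2, z ^ i) ^ 1 * (∑ i ∈ Finset.range 3, z ^ i) ^ 1 - ((6 : ℤ) : R) * (1 + ((9 : ℤ) : R) * (z - 1) ^ 4) := by
  have h0 : z ^ 4 = (1 + (z - 1)) ^ 4 := by ring
  have h2 : ∑ i ∈ Finset.range 2, z ^ i = 2 + 1 * (z - 1) := by
    simp only [Finset.sum_range_succ, Finset.sum_range_zero]; ring
  have h3 : ∑ i ∈ Finset.range 3, z ^ i = 3 + 3 * (z - 1) + 1 * (z - 1) ^ 2 := by
    simp only [Finset.sum_range_succ, Finset.sum_range_zero]; ring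
  rw [h0, h2, h3]
  push_cast
  exact unitCong_11_2 (z - 1) h

lemma unitCong_11_3 {R : Type*} [CommRing R] (π : R) (h : π ^ 7 ∣ (11 : R)) :
    π ^ 7 ∣ (1 + π) ^ 5 * (2 + 1 * π) ^ 1 * (4 + 6 * π + 4 * π ^ 2 + 1 * π ^ 3) ^ 1 * (5 + 10 * π + 10 * π ^ 2 + 5 * π ^ 3 + 1 * π ^ 4) ^ 2 - 2 * (1 + 5 * π ^ 6) := by
  have e : (1 + π) ^ 5 * (2 + 1 * π) ^ 1 * (4 + 6 * π + 4 * π ^ 2 + 1 * π ^ 3) ^ 1 * (5 + 10 * π + 10 * π ^ 2 + 5 * π ^ 3 + 1 * π ^ 4) ^ 2 - 2 * (1 + 5 * π ^ 6) =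
      π ^ 7 * (258140 + 234353 * π + 172991 * π ^ 2 + 103749 * π ^ 3 + 50221 * π ^ 4 + 19361 * π ^ 5 + 5813 * π ^ 6 + 1311 * π ^ 7 + 209 * π ^ 8 + 21 * π ^ 9 + 1 * π ^ 10) + 11 * (18 + 200 * π + 1050 * π ^ 2 + 3500 * π ^ 3 + 8305 * π ^ 4 + 14895 * π ^ 5 + 20910 * π ^ 6) := by
    ring
  rw [e]
  exact dvd_add (dvd_mul_right _ _) (Dvd.dvd.mul_right h _)

lemma unitCong'_11_3 {R : Type*} [CommRing R] (z : R) (h : (z - 1) ^ 7 ∣ (11 : R)) :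
    (z - 1) ^ (6 + 1) ∣ z ^ 5 * (∑ i ∈ Finset.range 2, z ^ i) ^ 1 * (∑ i ∈ Finset.range 4, z ^ i) ^ 1 * (∑ i ∈ Finset.range 5, z ^ i) ^ 2 - ((2 : ℤ) : R) * (1 + ((5 : ℤ) : R) * (z - 1) ^ 6) := by
  have h0 : z ^ 5 = (1 + (z - 1)) ^ 5 := by ring
  have h2 : ∑ i ∈ Finset.range 2, z ^ i = 2 + 1 * (z - 1) := by
    simp only [Finset.sum_range_succ, Finset.sum_range_zero]; ring
  have h4 : ∑ i ∈ Finset.range 4, z ^ i = 4 + 6 * (z - 1) + 4 * (z - 1) ^ 2 + 1 * (z - 1) ^ 3 := by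
    simp only [Finset.sum_range_succ, Finset.sum_range_zero]; ring
  have h5 : ∑ i ∈ Finset.range 5, z ^ i = 5 + 10 * (z - 1) + 10 * (z - 1) ^ 2 + 5 * (z - 1) ^ 3 + 1 * (z - 1) ^ 4 := by
    simp only [Finset.sum_range_succ, Finset.sum_range_zero]; ring
  rw [h0, h2, h4, h5]
  push_cast
  exact unitCong_11_3 (z - 1) h

lemma unitCong_11_4 {R : Type*} [CommRing R] (π : R) (h : π ^ 9 ∣ (11 : R)) :
    π ^ 9 ∣ (1 + π) ^ 5 * (2 + 1 * π) ^ 3 * (3 + 3 * π + 1 * π ^ 2) ^ 4 * (4 + 6 * π + 4 * π ^ 2 + 1 * π ^ 3) ^ 1 * (5 + 10 * π + 10 * π ^ 2 + 5 * π ^ 3 + 1 * π ^ 4) ^ 5 - 7 * (1 + 10 * π ^ 8) := by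
  have e : (1 + π) ^ 5 * (2 + 1 * π) ^ 3 * (3 + 3 * π + 1 * π ^ 2) ^ 4 * (4 + 6 * π + 4 * π ^ 2 + 1 * π ^ 3) ^ 1 * (5 + 10 * π + 10 * π ^ 2 + 5 * π ^ 3 + 1 * π ^ 4) ^ 5 - 7 * (1 + 10 * π ^ 8) =
      π ^ 9 * (14496195448125 + 26910639937500 * π + 44317223128125 * π ^ 2 + 65192306958000 * π ^ 3 + 86134234555500 * π ^ 4 + 102659625841750 * π ^ 5 + 110752550568750 * π ^ 6 + 108438686432800 * π ^ 7 + 96548106999450 * π ^ 8 + 78275108037050 * π ^ 9 + 57833112144200 * π ^ 10 + 38952038989692 * π ^ 11 + 23910812810804 * π ^ 12 + 13367828779495 * π ^ 13 + 6798251729293 * π ^ 14 + 3139299113374 * π ^ 15 + 1313216293799 * π ^ 16 + 496117443726 * π ^ 17 + 168622735427 * π ^ 18 + 51317910948 * π ^ 19 + 13902469412 * π ^ 20 + 3328288403 * π ^ 21 + 697749773 * π ^ 22 + 126623310 * π ^ 23 + 19596517 * π ^ 24 + 2535559 * π ^ 25 + 266856 * π ^ 26 + 21946 * π ^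 27 + 1323 * π ^ 28 + 52 * π ^ 29 + 1 * π ^ 30) + 11 * (736363 + 16200000 * π + 175500000 * π ^ 2 + 1247400000 * π ^ 3 + 6538893750 * π ^ 4 + 26941275000 * π ^ 5 + 90794765625 * π ^ 6 + 257170284375 * π ^ 7 + 624276134880 * π ^ 8) := by
    ring
  rw [e]
  exact dvd_add (dvd_mul_right _ _) (Dvd.dvd.mul_right h _)

lemma unitCong'_11_4 {R : Type*} [CommRing R] (z : R) (h : (z - 1) ^ 9 ∣ (11 : R)) :
    (z - 1) ^ (8 + 1) ∣ z ^ 5 * (∑ i ∈ Finset.range 2, z ^ i) ^ 3 * (∑ i ∈ Finset.range 3, z ^ i) ^ 4 * (∑ i ∈ Finset.range 4, z ^ i) ^ 1 * (∑ i ∈ Finset.range 5, z ^ i) ^ 5 - ((7 : ℤ) : R) * (1 + ((10 : ℤ) : R) * (z - 1) ^ 8) := by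
  have h0 : z ^ 5 = (1 + (z - 1)) ^ 5 := by ring
  have h2 : ∑ i ∈ Finset.range 2, z ^ i = 2 + 1 * (z - 1) := by
    simp only [Finset.sum_range_succ, Finset.sum_range_zero]; ring
  have h3 : ∑ i ∈ Finset.range 3, z ^ i = 3 + 3 * (z - 1) + 1 * (z - 1) ^ 2 := by
    simp only [Finset.sum_range_succ, Finset.sum_range_zero]; ring
  have h4 : ∑ i ∈ Finset.range 4, z ^ i = 4 + 6 * (z - 1) + 4 * (z - 1) ^ 2 + 1 * (z - 1) ^ 3 := by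
    simp only [Finset.sum_range_succ, Finset.sum_range_zero]; ring
  have h5 : ∑ i ∈ Finset.range 5, z ^ i = 5 + 10 * (z - 1) + 10 * (z - 1) ^ 2 + 5 * (z - 1) ^ 3 + 1 * (z - 1) ^ 4 := by
    simp only [Finset.sum_range_succ, Finset.sum_range_zero]; ring
  rw [h0, h2, h3, h4, h5]
  push_cast
  exact unitCong_11_4 (z - 1) h

lemma unitCong_13_1 {R : Type*} [CommRing R] (π : R) (h : π ^ 3 ∣ (13 : R)) :
    π ^ 3 ∣ (1 + π) ^ 4 * (6 + 15 * π + 20 * π ^ 2 + 15 * π ^ 3 + 6 * π ^ 4 + 1 * π ^ 5) ^ 1 - 6 * (1 + 2 * π ^ 2) := by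
  have e : (1 + π) ^ 4 * (6 + 15 * π + 20 * π ^ 2 + 15 * π ^ 3 + 6 * π ^ 4 + 1 * π ^ 5) ^ 1 - 6 * (1 + 2 * π ^ 2) =
      π ^ 3 * (209 + 252 * π + 210 * π ^ 2 + 120 * π ^ 3 + 45 * π ^ 4 + 10 * π ^ 5 + 1 * π ^ 6) + 13 * (3 * π + 8 * π ^ 2) := by
    ring
  rw [e]
  exact dvd_add (dvd_mul_right _ _) (Dvd.dvd.mul_right h _)

lemma unitCong'_13_1 {R : Type*} [CommRing R] (z : R) (h : (z - 1) ^ 3 ∣ (13 : R)) :
    (z - 1) ^ (2 + 1) ∣ z ^ 4 * (∑ i ∈ Finset.range 6, z ^ i) ^ 1 - ((6 : ℤ) : R) * (1 + ((2 : ℤ) : R) * (z - 1) ^ 2) := by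
  have h0 : z ^ 4 = (1 + (z - 1)) ^ 4 := by ring
  have h6 : ∑ i ∈ Finset.range 6, z ^ i = 6 + 15 * (z - 1) + 20 * (z - 1) ^ 2 + 15 * (z - 1) ^ 3 + 6 * (z - 1) ^ 4 + 1 * (z - 1) ^ 5 := by
    simp only [Finset.sum_range_succ, Finset.sum_range_zero]; ring
  rw [h0, h6]
  push_cast
  exact unitCong_13_1 (z - 1) h

lemma unitCong_13_2 {R : Type*} [CommRing R] (π : R) (h : π ^ 5 ∣ (13 : R)) :
    π ^ 5 ∣ (1 + π) ^ 3 * (4 + 6 * π + 4 * π ^ 2 + 1 * π ^ 3) ^ 1 * (5 + 10 * π + 10 * π ^ 2 + 5 * π ^ 3 + 1 * π ^ 4) ^ 1 - 7 * (1 + 10 * π ^ 4) := by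
  have e : (1 + π) ^ 3 * (4 + 6 * π + 4 * π ^ 2 + 1 * π ^ 3) ^ 1 * (5 + 10 * π + 10 * π ^ 2 + 5 * π ^ 3 + 1 * π ^ 4) ^ 1 - 7 * (1 + 10 * π ^ 4) =
      π ^ 5 * (783 + 494 * π + 220 * π ^ 2 + 66 * π ^ 3 + 12 * π ^ 4 + 1 * π ^ 5) + 13 * (1 + 10 * π + 30 * π ^ 2 + 55 * π ^ 3 + 63 * π ^ 4) := by
    ring
  rw [e]
  exact dvd_add (dvd_mul_right _ _) (Dvd.dvd.mul_right h _)

lemma unitCong'_13_2 {R : Type*} [CommRing R] (z : R) (h : (z - 1) ^ 5 ∣ (13 : R)) :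
    (z - 1) ^ (4 + 1) ∣ z ^ 3 * (∑ i ∈ Finset.range 4, z ^ i) ^ 1 * (∑ i ∈ Finset.range 5, z ^ i) ^ 1 - ((7 : ℤ) : R) * (1 + ((10 : ℤ) : R) * (z - 1) ^ 4) := by
  have h0 : z ^ 3 = (1 + (z - 1)) ^ 3 := by ring
  have h4 : ∑ i ∈ Finset.range 4, z ^ i = 4 + 6 * (z - 1) + 4 * (z - 1) ^ 2 + 1 * (z - 1) ^ 3 := by
    simp only [Finset.sum_range_succ, Finset.sum_range_zero]; ring
  have h5 : ∑ i ∈ Finset.range 5, z ^ i = 5 + 10 * (z - 1) + 10 * (z - 1) ^ 2 + 5 * (z - 1) ^ 3 + 1 * (z - 1) ^ 4 := by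
    simp only [Finset.sum_range_succ, Finset.sum_range_zero]; ring
  rw [h0, h4, h5]
  push_cast
  exact unitCong_13_2 (z - 1) h

lemma unitCong_13_3 {R : Type*} [CommRing R] (π : R) (h : π ^ 7 ∣ (13 : R)) :
    π ^ 7 ∣ (1 + π) ^ 10 * (3 + 3 * π + 1 * π ^ 2) ^ 1 * (4 + 6 * π + 4 * π ^ 2 + 1 * π ^ 3) ^ 1 * (5 + 10 * π + 10 * π ^ 2 + 5 * π ^ 3 + 1 * π ^ 4) ^ 1 * (6 + 15 * π + 20 * π ^ 2 + 15 * π ^ 3 + 6 * π ^ 4 + 1 * π ^ 5) ^ 2 - 2 * (1 + 6 * π ^ 6) := by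
  have e : (1 + π) ^ 10 * (3 + 3 * π + 1 * π ^ 2) ^ 1 * (4 + 6 * π + 4 * π ^ 2 + 1 * π ^ 3) ^ 1 * (5 + 10 * π + 10 * π ^ 2 + 5 * π ^ 3 + 1 * π ^ 4) ^ 1 * (6 + 15 * π + 20 * π ^ 2 + 15 * π ^ 3 + 6 * π ^ 4 + 1 * π ^ 5) ^ 2 - 2 * (1 + 6 * π ^ 6) =
      π ^ 7 * (257744256 + 511909696 * π + 871875124 * π ^ 2 + 1286226578 * π ^ 3 + 1655677483 * π ^ 4 + 1869504430 * π ^ 5 + 1858396212 * π ^ 6 + 1629887315 * π ^ 7 + 1262329495 * π ^ 8 + 863068512 * π ^ 9 + 520129958 * π ^ 10 + 275522755 * π ^ 11 + 127748412 * π ^ 12 + 51542546 * π ^ 13 + 17954506 * π ^ 14 + 5343630 * π ^ 15 + 1339943 * π ^ 16 + 277760 * π ^ 17 + 46344 * π ^ 18 + 5983 * π ^ 19 + 561 * π ^ 20 + 34 * π ^ 21 + 1 * π ^ 22) + 13 * (166 + 3240 * π + 30780 * π ^ 2 + 189810 * π ^ 3 + 853974 * π ^ 4 + 2986515 * π ^ 5 + 8444879 * π ^ 6) := by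
    ring
  rw [e]
  exact dvd_add (dvd_mul_right _ _) (Dvd.dvd.mul_right h _)

lemma unitCong'_13_3 {R : Type*} [CommRing R] (z : R) (h : (z - 1) ^ 7 ∣ (13 : R)) :
    (z - 1) ^ (6 + 1) ∣ z ^ 10 * (∑ i ∈ Finset.range 3, z ^ i) ^ 1 * (∑ i ∈ Finset.range 4, z ^ i) ^ 1 * (∑ i ∈ Finset.range 5, z ^ i) ^ 1 * (∑ i ∈ Finset.range 6, z ^ i) ^ 2 - ((2 : ℤ) : R) * (1 + ((6 : ℤ) : R) * (z - 1) ^ 6) := by
  have h0 : z ^ 10 = (1 + (z - 1)) ^ 10 := by ring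
  have h3 : ∑ i ∈ Finset.range 3, z ^ i = 3 + 3 * (z - 1) + 1 * (z - 1) ^ 2 := by
    simp only [Finset.sum_range_succ, Finset.sum_range_zero]; ring
  have h4 : ∑ i ∈ Finset.range 4, z ^ i = 4 + 6 * (z - 1) + 4 * (z - 1) ^ 2 + 1 * (z - 1) ^ 3 := by
    simp only [Finset.sum_range_succ, Finset.sum_range_zero]; ring
  have h5 : ∑ i ∈ Finset.range 5, z ^ i = 5 + 10 * (z - 1) + 10 * (z - 1) ^ 2 + 5 * (z - 1) ^ 3 + 1 * (z - 1) ^ 4 := by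
    simp only [Finset.sum_range_succ, Finset.sum_range_zero]; ring
  have h6 : ∑ i ∈ Finset.range 6, z ^ i = 6 + 15 * (z - 1) + 20 * (z - 1) ^ 2 + 15 * (z - 1) ^ 3 + 6 * (z - 1) ^ 4 + 1 * (z - 1) ^ 5 := by
    simp only [Finset.sum_range_succ, Finset.sum_range_zero]; ring
  rw [h0, h3, h4, h5, h6]
  push_cast
  exact unitCong_13_3 (z - 1) h

lemma unitCong_13_4 {R : Type*} [CommRing R] (π : R) (h : π ^ 9 ∣ (13 : R)) :
    π ^ 9 ∣ (1 + π) ^ 4 * (2 + 1 * π) ^ 2 * (3 + 3 * π + 1 * π ^ 2) ^ 1 * (5 + 10 * π + 10 * π ^ 2 + 5 * π ^ 3 + 1 * π ^ 4) ^ 2 * (6 + 15 * π + 20 * π ^ 2 + 15 * π ^ 3 + 6 * π ^ 4 + 1 * π ^ 5) ^ 9 - 5 * (1 + 12 * π ^ 8) := by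
  have e : (1 + π) ^ 4 * (2 + 1 * π) ^ 2 * (3 + 3 * π + 1 * π ^ 2) ^ 1 * (5 + 10 * π + 10 * π ^ 2 + 5 * π ^ 3 + 1 * π ^ 4) ^ 2 * (6 + 15 * π + 20 * π ^ 2 + 15 * π ^ 3 + 6 * π ^ 4 + 1 * π ^ 5) ^ 9 - 5 * (1 + 12 * π ^ 8) =
      π ^ 9 * (303025357350020052 + 947691527583504042 * π + 2672671230180448875 * π ^ 2 + 6848580608057849319 * π ^ 3 + 16045045604352389142 * π ^ 4 + 34548247358182048689 * π ^ 5 + 68668507105926361119 * π ^ 6 + 126458506233953328582 * π ^ 7 + 216456887189533527054 * π ^ 8 + 345304903174513697544 * π ^ 9 + 514574944319415518277 * π ^ 10 + 717746701703710929119 * π ^ 11 + 938657633378527336644 * π ^ 12 + 1152612576683799705627 * π ^ 13 + 1330541840719299316644 * π ^ 14 + 1445386016650148583989 * π ^ 15 + 1478803842677665062887 * π ^ 16 + 1425924794622515254524 * π ^ 17 + 1296467690783000665564 * π ^ 18 + 1111888651340418417446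 * π ^ 19 + 899683501775559002503 * π ^ 20 + 686882475924692239853 * π ^ 21 + 494785670242698163337 * π ^ 22 + 336213094181723593892 * π ^ 23 + 215446176679327964172 * π ^ 24 + 130135454655086404064 * π ^ 25 + 74051151820150605561 * π ^ 26 + 39667271520498531783 * π ^ 27 + 19985603240871373998 * π ^ 28 + 9461012953957239261 * π ^ 29 + 4203103570357616616 * π ^ 30 + 1749887942827612863 * π ^ 31 + 681654719933479101 * π ^ 32 + 247993148607780156 * π ^ 33 + 84087409402802988 * π ^ 34 + 26509763411470746 * π ^ 35 + 7749701747969721 * π ^ 36 + 2094198507765243 * π ^ 37 + 521256876195091 * π ^ 38 + 119012470323288 * π ^ 39 + 24805733658300 * π ^ 40 + 4693328365128 * π ^ 41 + 800709378061 * π ^ 42 + 122193242587 * π ^ 43 + 16517552022 * π ^ 44 + 1953816929 * π ^ 45 + 199125526 * π ^ 46 + 17132513 * π ^ 47 + 1210123 * π ^ 48 + 67378 * π ^ 49 + 2773 * π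 ^ 50 + 75 * π ^ 51 + 1 * π ^ 52) + 13 * (232562215 + 7558272000 * π + 122695948800 * π ^ 2 + 1325342995200 * π ^ 3 + 10707955107840 * π ^ 4 + 68966851144320 * π ^ 5 + 368564699880000 * π ^ 6 + 1679668083842400 * π ^ 7 + 6658755574127484 * π ^ 8) := by
    ring
  rw [e]
  exact dvd_add (dvd_mul_right _ _) (Dvd.dvd.mul_right h _)

lemma unitCong'_13_4 {R : Type*} [CommRing R] (z : R) (h : (z - 1) ^ 9 ∣ (13 : R)) :
    (z - 1) ^ (8 + 1) ∣ z ^ 4 * (∑ i ∈ Finset.range 2, z ^ i) ^ 2 * (∑ i ∈ Finset.range 3, z ^ i) ^ 1 * (∑ i ∈ Finset.range 5, z ^ i) ^ 2 * (∑ i ∈ Finset.range 6, z ^ i) ^ 9 - ((5 : ℤ) : R) * (1 + ((12 : ℤ) : R) * (z - 1) ^ 8) := by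
  have h0 : z ^ 4 = (1 + (z - 1)) ^ 4 := by ring
  have h2 : ∑ i ∈ Finset.range 2, z ^ i = 2 + 1 * (z - 1) := by
    simp only [Finset.sum_range_succ, Finset.sum_range_zero]; ring
  have h3 : ∑ i ∈ Finset.range 3, z ^ i = 3 + 3 * (z - 1) + 1 * (z - 1) ^ 2 := by
    simp only [Finset.sum_range_succ, Finset.sum_range_zero]; ring
  have h5 : ∑ i ∈ Finset.range 5, z ^ i = 5 + 10 * (z - 1) + 10 * (z - 1) ^ 2 + 5 * (z - 1) ^ 3 + 1 * (z - 1) ^ 4 := by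
    simp only [Finset.sum_range_succ, Finset.sum_range_zero]; ring
  have h6 : ∑ i ∈ Finset.range 6, z ^ i = 6 + 15 * (z - 1) + 20 * (z - 1) ^ 2 + 15 * (z - 1) ^ 3 + 6 * (z - 1) ^ 4 + 1 * (z - 1) ^ 5 := by
    simp only [Finset.sum_range_succ, Finset.sum_range_zero]; ring
  rw [h0, h2, h3, h5, h6]
  push_cast
  exact unitCong_13_4 (z - 1) h

lemma unitCong_13_5 {R : Type*} [CommRing R] (π : R) (h : π ^ 11 ∣ (13 : R)) :
    π ^ 11 ∣ (1 + π) ^ 6 * (2 + 1 * π) ^ 9 * (3 + 3 * π + 1 * π ^ 2) ^ 4 * (4 + 6 * π + 4 * π ^ 2 + 1 * π ^ 3) ^ 10 * (5 + 10 * π + 10 * π ^ 2 + 5 * π ^ 3 + 1 * π ^ 4) ^ 1 * (6 + 15 * π + 20 * π ^ 2 + 15 * π ^ 3 + 6 * π ^ 4 + 1 * π ^ 5) ^ 3 - 5 * (1 + 6 * π ^ 10) := by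
  have e : (1 + π) ^ 6 * (2 + 1 * π) ^ 9 * (3 + 3 * π + 1 * π ^ 2) ^ 4 * (4 + 6 * π + 4 * π ^ 2 + 1 * π ^ 3) ^ 10 * (5 + 10 * π + 10 * π ^ 2 + 5 * π ^ 3 + 1 * π ^ 4) ^ 1 * (6 + 15 * π + 20 * π ^ 2 + 15 * π ^ 3 + 6 * π ^ 4 + 1 * π ^ 5) ^ 3 - 5 * (1 + 6 * π ^ 10) =
      π ^ 11 * (240392785262824302575616 + 710447381930211035578368 * π + 1917614224688386116943872 * π ^ 2 + 4753632894795823495774208 * π ^ 3 + 10873802484435801755090944 * π ^ 4 + 23045914339430811491303424 * π ^ 5 + 45413974105128580431544320 * π ^ 6 + 83463319095369961548234752 * π ^ 7 + 143440700729319919215476736 * π ^ 8 + 231066570075222720924733440 * π ^ 9 + 349610471684564472264642560 * π ^ 10 + 497739761376038169244412928 * π ^ 11 + 667859880071974483847753728 * π ^ 12 + 845756580380902080441332736 * π ^ 13 + 1012093527584439117437027328 * π ^ 14 + 1145732263585519737928772352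 * π ^ 15 + 1228131499689247574648400384 * π ^ 16 + 1247564535307747638827265024 * π ^ 17 + 1201833521234246958064065792 * π ^ 18 + 1098622811436389366622244736 * π ^ 19 + 953436820243523112784315392 * π ^ 20 + 785866594405281345537737856 * π ^ 21 + 615395763116668715566688128 * π ^ 22 + 457937522938837795042920096 * π ^ 23 + 323865433832246666193695808 * π ^ 24 + 217697926220922949219880912 * π ^ 25 + 139079965199978241099426864 * π ^ 26 + 84440232452340611453913564 * π ^ 27 + 48711033643762559000385616 * π ^ 28 + 26691985929214260505096644 * π ^ 29 + 13888513383457139108199140 * π ^ 30 + 6858981886050070952586375 * π ^ 31 + 3213369278191256803495146 * π ^ 32 + 1427200987117806394186074 * π ^ 33 + 600503391112906995291003 * π ^ 34 + 239159025805286405926164 * π ^ 35 + 90070678638097294220880 * π ^ 36 + 32043108760521806745193 * π ^ 37 + 10754970491273985986187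 * π ^ 38 + 3401021467464762576422 * π ^ 39 + 1011726680750984903493 * π ^ 40 + 282628369456576547040 * π ^ 41 + 73997688690397141215 * π ^ 42 + 18118175608248100056 * π ^ 43 + 4138334070623742333 * π ^ 44 + 879284006507821464 * π ^ 45 + 173234828370879001 * π ^ 46 + 31532201191815294 * π ^ 47 + 5280289712861013 * π ^ 48 + 809516322219146 * π ^ 49 + 112973799677085 * π ^ 50 + 14255451325482 * π ^ 51 + 1613320522291 * π ^ 52 + 162150308448 * π ^ 53 + 14297482005 * π ^ 54 + 1088893565 * π ^ 55 + 70180449 * π ^ 56 + 3722114 * π ^ 57 + 155972 * π ^ 58 + 4842 * π ^ 59 + 99 * π ^ 60 + 1 * π ^ 61) + 13 * (3612728260135 + 140896402145280 * π + 2727910897090560 * π ^ 2 + 34950135309926400 * π ^ 3 + 333263238441467904 * π ^ 4 + 2522021528598478848 * π ^ 5 + 15773627854186610688 * π ^ 6 + 83837034519953670144 * π ^ 7 + 386436567370467115008 * π ^ 8 + 1568757038900500758528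 * π ^ 9 + 5676979256107683726570 * π ^ 10) := by
    ring
  rw [e]
  exact dvd_add (dvd_mul_right _ _) (Dvd.dvd.mul_right h _)

lemma unitCong'_13_5 {R : Type*} [CommRing R] (z : R) (h : (z - 1) ^ 11 ∣ (13 : R)) :
    (z - 1) ^ (10 + 1) ∣ z ^ 6 * (∑ i ∈ Finset.range 2, z ^ i) ^ 9 * (∑ i ∈ Finset.range 3, z ^ i) ^ 4 * (∑ i ∈ Finset.range 4, z ^ i) ^ 10 * (∑ i ∈ Finset.range 5, z ^ i) ^ 1 * (∑ i ∈ Finset.range 6, z ^ i) ^ 3 - ((5 : ℤ) : R) * (1 + ((6 : ℤ) : R) * (z - 1) ^ 10) := by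
  have h0 : z ^ 6 = (1 + (z - 1)) ^ 6 := by ring
  have h2 : ∑ i ∈ Finset.range 2, z ^ i = 2 + 1 * (z - 1) := by
    simp only [Finset.sum_range_succ, Finset.sum_range_zero]; ring
  have h3 : ∑ i ∈ Finset.range 3, z ^ i = 3 + 3 * (z - 1) + 1 * (z - 1) ^ 2 := by
    simp only [Finset.sum_range_succ, Finset.sum_range_zero]; ring
  have h4 : ∑ i ∈ Finset.range 4, z ^ i = 4 + 6 * (z - 1) + 4 * (z - 1) ^ 2 + 1 * (z - 1) ^ 3 := by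
    simp only [Finset.sum_range_succ, Finset.sum_range_zero]; ring
  have h5 : ∑ i ∈ Finset.range 5, z ^ i = 5 + 10 * (z - 1) + 10 * (z - 1) ^ 2 + 5 * (z - 1) ^ 3 + 1 * (z - 1) ^ 4 := by
    simp only [Finset.sum_range_succ, Finset.sum_range_zero]; ring
  have h6 : ∑ i ∈ Finset.range 6, z ^ i = 6 + 15 * (z - 1) + 20 * (z - 1) ^ 2 + 15 * (z - 1) ^ 3 + 6 * (z - 1) ^ 4 + 1 * (z - 1) ^ 5 := by
    simp only [Finset.sum_range_succ, Finset.sum_range_zero]; ring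
  rw [h0, h2, h3, h4, h5, h6]
  push_cast
  exact unitCong_13_5 (z - 1) h

/-- **Kummer's lemma** for `p = 5`. -/
theorem kummerProp_5 (K : Type*) [Field K] [NumberField K] [IsCyclotomicExtension {5} ℚ K] :
    KummerProp 5 K := by
  have : Fact (Nat.Prime 5) := ⟨by norm_num⟩
  have hζ := IsCyclotomicExtension.zeta_spec 5 ℚ K
  have hP : ∀ m, m ≤ 4 → (hζ.toInteger - 1) ^ m ∣ (5 : 𝓞 K) := fun m hm =>
    (pow_dvd_pow _ hm).trans (by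
      exact_mod_cast (IsCyclotomicExtension.Rat.associated_zeta_sub_one_pow_prime 5 hζ).dvd)
  refine kummerProp_of_units hζ (by norm_num) (ι := Fin 1) (by simp)
    ![zetaUnit hζ ^ 2 * geomUnit hζ 2 (by norm_num) ^ 1]
    ![2] ![2] ![2]
    (by decide) ?_ ?_ ?_ ?_
  · intro j; fin_cases j <;> simp
  · intro j; fin_cases j <;> simp
  · intro j; fin_cases j <;> norm_num
  · intro j
    fin_cases j
    · exact unitCong'_5_1 hζ.toInteger (hP 3 (by norm_num))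

/-- **Kummer's lemma** for `p = 7`. -/
theorem kummerProp_7 (K : Type*) [Field K] [NumberField K] [IsCyclotomicExtension {7} ℚ K] :
    KummerProp 7 K := by
  have : Fact (Nat.Prime 7) := ⟨by norm_num⟩
  have hζ := IsCyclotomicExtension.zeta_spec 7 ℚ K
  have hP : ∀ m, m ≤ 6 → (hζ.toInteger - 1) ^ m ∣ (7 : 𝓞 K) := fun m hm =>
    (pow_dvd_pow _ hm).trans (by
      exact_mod_cast (IsCyclotomicExtension.Rat.associated_zeta_sub_one_pow_prime 7 hζ).dvd)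
  refine kummerProp_of_units hζ (by norm_num) (ι := Fin 2) (by simp)
    ![zetaUnit hζ ^ 6 * geomUnit hζ 3 (by norm_num) ^ 1, zetaUnit hζ ^ 5 * geomUnit hζ 2 (by norm_num) ^ 2 * geomUnit hζ 3 (by norm_num) ^ 1]
    ![2, 4] ![3, 5] ![5, 3]
    (by decide) ?_ ?_ ?_ ?_
  · intro j; fin_cases j <;> simp
  · intro j; fin_cases j <;> simp
  · intro j; fin_cases j <;> norm_num
  · intro j
    fin_cases j
    · exact unitCong'_7_1 hζ.toInteger (hP 3 (by norm_num))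
    · exact unitCong'_7_2 hζ.toInteger (hP 5 (by norm_num))

/-- **Kummer's lemma** for `p = 11`. -/
theorem kummerProp_11 (K : Type*) [Field K] [NumberField K] [IsCyclotomicExtension {11} ℚ K] :
    KummerProp 11 K := by
  have : Fact (Nat.Prime 11) := ⟨by norm_num⟩
  have hζ := IsCyclotomicExtension.zeta_spec 11 ℚ K
  have hP : ∀ m, m ≤ 10 → (hζ.toInteger - 1) ^ m ∣ (11 : 𝓞 K) := fun m hm =>
    (pow_dvd_pow _ hm).trans (by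
      exact_mod_cast (IsCyclotomicExtension.Rat.associated_zeta_sub_one_pow_prime 11 hζ).dvd)
  refine kummerProp_of_units hζ (by norm_num) (ι := Fin 4) (by simp)
    ![zetaUnit hζ ^ 9 * geomUnit hζ 5 (by norm_num) ^ 1, zetaUnit hζ ^ 4 * geomUnit hζ 2 (by norm_num) ^ 1 * geomUnit hζ 3 (by norm_num) ^ 1, zetaUnit hζ ^ 5 * geomUnit hζ 2 (by norm_num) ^ 1 * geomUnit hζ 4 (by norm_num) ^ 1 * geomUnit hζ 5 (by norm_num) ^ 2, zetaUnit hζ ^ 5 * geomUnit hζ 2 (by norm_num) ^ 3 * geomUnit hζ 3 (by norm_num) ^ 4 * geomUnit hζ 4 (by norm_num) ^ 1 * geomUnit hζ 5 (by norm_num) ^ 5]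
    ![2, 4, 6, 8] ![5, 6, 2, 7] ![1, 9, 5, 10]
    (by decide) ?_ ?_ ?_ ?_
  · intro j; fin_cases j <;> simp
  · intro j; fin_cases j <;> simp
  · intro j; fin_cases j <;> norm_num
  · intro j
    fin_cases j
    · exact unitCong'_11_1 hζ.toInteger (hP 3 (by norm_num))
    · exact unitCong'_11_2 hζ.toInteger (hP 5 (by norm_num))
    · exact unitCong'_11_3 hζ.toInteger (hP 7 (by norm_num))
    · exact unitCong'_11_4 hζ.toInteger (hP 9 (by norm_num))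

/-- **Kummer's lemma** for `p = 13`. -/
theorem kummerProp_13 (K : Type*) [Field K] [NumberField K] [IsCyclotomicExtension {13} ℚ K] :
    KummerProp 13 K := by
  have : Fact (Nat.Prime 13) := ⟨by norm_num⟩
  have hζ := IsCyclotomicExtension.zeta_spec 13 ℚ K
  have hP : ∀ m, m ≤ 12 → (hζ.toInteger - 1) ^ m ∣ (13 : 𝓞 K) := fun m hm =>
    (pow_dvd_pow _ hm).trans (by
      exact_mod_cast (IsCyclotomicExtension.Rat.associated_zeta_sub_one_pow_prime 13 hζ).dvd)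
  refine kummerProp_of_units hζ (by norm_num) (ι := Fin 5) (by simp)
    ![zetaUnit hζ ^ 4 * geomUnit hζ 6 (by norm_num) ^ 1, zetaUnit hζ ^ 3 * geomUnit hζ 4 (by norm_num) ^ 1 * geomUnit hζ 5 (by norm_num) ^ 1, zetaUnit hζ ^ 10 * geomUnit hζ 3 (by norm_num) ^ 1 * geomUnit hζ 4 (by norm_num) ^ 1 * geomUnit hζ 5 (by norm_num) ^ 1 * geomUnit hζ 6 (by norm_num) ^ 2, zetaUnit hζ ^ 4 * geomUnit hζ 2 (by norm_num) ^ 2 * geomUnit hζ 3 (by norm_num) ^ 1 * geomUnit hζ 5 (by norm_num) ^ 2 * geomUnit hζ 6 (by norm_num) ^ 9, zetaUnit hζ ^ 6 * geomUnit hζ 2 (by norm_num) ^ 9 * geomUnit hζ 3 (by norm_num) ^ 4 * geomUnit hζ 4 (by norm_num) ^ 10 * geomUnit hζ 5 (by norm_num) ^ 1 * geomUnit hζ 6 (by norm_num) ^ 3]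
    ![2, 4, 6, 8, 10] ![6, 7, 2, 5, 5] ![2, 10, 6, 12, 6]
    (by decide) ?_ ?_ ?_ ?_
  · intro j; fin_cases j <;> simp
  · intro j; fin_cases j <;> simp
  · intro j; fin_cases j <;> norm_num
  · intro j
    fin_cases j
    · exact unitCong'_13_1 hζ.toInteger (hP 3 (by norm_num))
    · exact unitCong'_13_2 hζ.toInteger (hP 5 (by norm_num))
    · exact unitCong'_13_3 hζ.toInteger (hP 7 (by norm_num))
    · exact unitCong'_13_4 hζ.toInteger (hP 9 (by norm_num))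
    · exact unitCong'_13_5 hζ.toInteger (hP 11 (by norm_num))

end Fermat.Agent.S10
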