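import Mathlib

set_option autoImplicit false

namespace Fermat.Agent.S10.PID13

open NumberField Polynomial InfinitePlace Nat Real cyclotomic Module Ideal
open RingOfIntegers NumberField.Ideal IsCyclotomicExtension

universe u

variable {K : Type u} [Field K] [NumberField K] [hK : IsCyclotomicExtension {13} ℚ K]

/-- Kummer-Dedekind based criterion: an explicit generator of a prime above `q`. -/
theorem exists_isPrincipal_primesOver (q : ℕ) [Fact q.Prime] (Q : ℤ[X])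
    (hQirr : Irreducible (Q.map (Int.castRingHom (ZMod q))))
    (hQmonic : (Q.map (Int.castRingHom (ZMod q))).Monic)
    (hQdvd : Q.map (Int.castRingHom (ZMod q)) ∣ cyclotomic 13 (ZMod q))
    (α β γ δ u : 𝓞 K)
    (h1 : α * β = q) (h2 : α * γ = aeval (zeta_spec 13 ℚ K).toInteger Q)
    (h3 : α = q * u + aeval (zeta_spec 13 ℚ K).toInteger Q * δ) :
    ∃ P ∈ primesOver (span {(q : ℤ)}) (𝓞 K), Submodule.IsPrincipal P := by
  set θ := (zeta_spec 13 ℚ K).toInteger with hθ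
  have h₁ : ¬ q ∣ exponent θ := by
    rw [exponent_eq_one_iff.mpr <| Rat.adjoin_singleton_eq_top (zeta_spec 13 ℚ K)]
    exact (Fact.out : q.Prime).not_dvd_one
  have hQ : Q.map (Int.castRingHom (ZMod q)) ∈ monicFactorsMod θ q := by
    rw [Multiset.mem_toFinset, Polynomial.mem_normalizedFactors_iff
      (map_monic_ne_zero (minpoly.monic θ.isIntegral))]
    refine ⟨hQirr, hQmonic, ?_⟩
    refine dvd_trans hQdvd ?_
    rw [← map_cyclotomic_int, cyclotomic_eq_minpoly (zeta_spec 13 ℚ K) (by norm_num),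
      ← (zeta_spec 13 ℚ K).coe_toInteger, ← RingOfIntegers.minpoly_coe θ]
    exact dvd_rfl
  refine ⟨span {(q : 𝓞 K), aeval θ Q}, ?_, ?_⟩
  · rw [← primesOverSpanEquivMonicFactorsMod_symm_apply_eq_span h₁ hQ]
    exact ((primesOverSpanEquivMonicFactorsMod h₁).symm ⟨_, hQ⟩).2
  · have : span {(q : 𝓞 K), aeval θ Q} = span {α} := by
      apply le_antisymm
      · rw [Ideal.span_le]
        intro x hx
        simp only [Set.mem_insert_iff, Set.mem_singleton_iff] at hx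
        rcases hx with rfl | rfl
        · exact Ideal.mem_span_singleton.mpr ⟨β, h1.symm⟩
        · exact Ideal.mem_span_singleton.mpr ⟨γ, h2.symm⟩
      · rw [Ideal.span_singleton_le_iff_mem, Ideal.mem_span_pair]
        exact ⟨u, δ, by rw [h3]; ring⟩
    rw [this]
    exact ⟨⟨α, rfl⟩⟩

/-- Degree one version of `exists_isPrincipal_primesOver`. -/
theorem exists_isPrincipal_primesOver_of_root (q : ℕ) [Fact q.Prime] (r : ℤ)
    (hr : ∑ i ∈ Finset.range 13, (r : ZMod q) ^ i = 0)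
    (α β γ δ u : 𝓞 K)
    (h1 : α * β = q) (h2 : α * γ = (zeta_spec 13 ℚ K).toInteger - r)
    (h3 : α = q * u + ((zeta_spec 13 ℚ K).toInteger - r) * δ) :
    ∃ P ∈ primesOver (span {(q : ℤ)}) (𝓞 K), Submodule.IsPrincipal P := by
  have : Fact (Nat.Prime 13) := ⟨by norm_num⟩
  have hmap : (X - C r : ℤ[X]).map (Int.castRingHom (ZMod q)) = X - C (r : ZMod q) := by
    simp
  have haeval : aeval (zeta_spec 13 ℚ K).toInteger (X - C r : ℤ[X]) =
      (zeta_spec 13 ℚ K).toInteger - r := by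
    simp
  refine exists_isPrincipal_primesOver q (X - C r) ?_ ?_ ?_ α β γ δ u h1 ?_ ?_
  · rw [hmap]; exact irreducible_X_sub_C _
  · rw [hmap]; exact monic_X_sub_C _
  · rw [hmap, dvd_iff_isRoot, IsRoot.def, cyclotomic_prime, eval_finsetSum]
    simpa using hr
  · rw [haeval]; exact h2
  · rw [haeval]; exact h3

/-- The defining relation of a primitive `13`-th root of unity. -/
theorem zeta_relation :
    1 + (zeta_spec 13 ℚ K).toInteger + (zeta_spec 13 ℚ K).toInteger ^ 2 +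
      (zeta_spec 13 ℚ K).toInteger ^ 3 + (zeta_spec 13 ℚ K).toInteger ^ 4 +
      (zeta_spec 13 ℚ K).toInteger ^ 5 + (zeta_spec 13 ℚ K).toInteger ^ 6 +
      (zeta_spec 13 ℚ K).toInteger ^ 7 + (zeta_spec 13 ℚ K).toInteger ^ 8 +
      (zeta_spec 13 ℚ K).toInteger ^ 9 + (zeta_spec 13 ℚ K).toInteger ^ 10 +
      (zeta_spec 13 ℚ K).toInteger ^ 11 + (zeta_spec 13 ℚ K).toInteger ^ 12 = 0 := by
  have h := (zeta_spec 13 ℚ K).toInteger_isPrimitiveRoot.geom_sum_eq_zero (by norm_num)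
  simpa [Finset.sum_range_succ] using h

theorem root_53 : ∑ i ∈ Finset.range 13, ((-17 : ℤ) : ZMod 53) ^ i = 0 := by decide

theorem exists_isPrincipal_primesOver_53 :
    ∃ P ∈ primesOver (span {((53 : ℕ) : ℤ)}) (𝓞 K), Submodule.IsPrincipal P := by
  have : Fact (Nat.Prime 53) := ⟨by norm_num⟩
  have hrel := zeta_relation (K := K)
  set θ := (zeta_spec 13 ℚ K).toInteger with hθ
  refine exists_isPrincipal_primesOver_of_root 53 (-17) root_53
    (1 + θ + θ ^ 3)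
    (1 - 24 * θ - 35 * θ ^ 2 - 25 * θ ^ 3 - 10 * θ ^ 4 - 14 * θ ^ 5 - 20 * θ ^ 6 - 29 * θ ^ 7 - 16 * θ ^ 8 - 23 * θ ^ 9 - 7 * θ ^ 10 - 36 * θ ^ 11)
    (1 - 7 * θ - 11 * θ ^ 2 - 8 * θ ^ 3 - 3 * θ ^ 4 - 4 * θ ^ 5 - 6 * θ ^ 6 - 9 * θ ^ 7 - 5 * θ ^ 8 - 7 * θ ^ 9 - 2 * θ ^ 10 - 11 * θ ^ 11)
    (290 - 17 * θ + θ ^ 2) (-93) ?_ ?_ ?_
  · push_cast
    linear_combination (-52 + 29 * θ - 36 * θ ^ 2) * hrel
  · push_cast
    linear_combination (-16 + 9 * θ - 11 * θ ^ 2) * hrel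
  · push_cast
    ring

theorem root_79 : ∑ i ∈ Finset.range 13, ((-15 : ℤ) : ZMod 79) ^ i = 0 := by decide

theorem exists_isPrincipal_primesOver_79 :
    ∃ P ∈ primesOver (span {((79 : ℕ) : ℤ)}) (𝓞 K), Submodule.IsPrincipal P := by
  have : Fact (Nat.Prime 79) := ⟨by norm_num⟩
  have hrel := zeta_relation (K := K)
  set θ := (zeta_spec 13 ℚ K).toInteger with hθ
  refine exists_isPrincipal_primesOver_of_root 79 (-15) root_79
    (1 + θ - θ ^ 4)
    (24 - 25 * θ - 27 * θ ^ 2 + 10 * θ ^ 3 - 3 * θ ^ 4 - 39 * θ ^ 5 - 5 * θ ^ 6 - 2 * θ ^ 7 - 18 * θ ^ 8 - 38 * θ ^ 9 + 16 * θ ^ 10 - 35 * θ ^ 11)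
    (5 - 4 * θ - 5 * θ ^ 2 + 2 * θ ^ 3 - 7 * θ ^ 5 - θ ^ 6 - 3 * θ ^ 8 - 7 * θ ^ 9 + 3 * θ ^ 10 - 6 * θ ^ 11)
    (3376 - 225 * θ + 15 * θ ^ 2 - θ ^ 3) (-641) ?_ ?_ ?_
  · push_cast
    linear_combination (-55 + 54 * θ - 51 * θ ^ 2 + 35 * θ ^ 3) * hrel
  · push_cast
    linear_combination (-10 + 10 * θ - 9 * θ ^ 2 + 6 * θ ^ 3) * hrel
  · push_cast
    ring

theorem root_131 : ∑ i ∈ Finset.range 13, ((-51 : ℤ) : ZMod 131) ^ i = 0 := by decide

theorem exists_isPrincipal_primesOver_131 :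
    ∃ P ∈ primesOver (span {((131 : ℕ) : ℤ)}) (𝓞 K), Submodule.IsPrincipal P := by
  have : Fact (Nat.Prime 131) := ⟨by norm_num⟩
  have hrel := zeta_relation (K := K)
  set θ := (zeta_spec 13 ℚ K).toInteger with hθ
  refine exists_isPrincipal_primesOver_of_root 131 (-51) root_131
    (1 - θ - θ ^ 3)
    (111 + 78 * θ + 17 * θ ^ 2 + 67 * θ ^ 3 + 84 * θ ^ 4 + 40 * θ ^ 5 + 46 * θ ^ 6 + 69 * θ ^ 7 + 48 * θ ^ 8 + 33 * θ ^ 9 + 41 * θ ^ 10 + 28 * θ ^ 11)
    (43 + 31 * θ + 7 * θ ^ 2 + 26 * θ ^ 3 + 33 * θ ^ 4 + 16 * θ ^ 5 + 18 * θ ^ 6 + 27 * θ ^ 7 + 19 * θ ^ 8 + 13 * θ ^ 9 + 16 * θ ^ 10 + 11 * θ ^ 11)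
    (-2602 + 51 * θ - θ ^ 2) (1013) ?_ ?_ ?_
  · push_cast
    linear_combination (-20 - 13 * θ - 28 * θ ^ 2) * hrel
  · push_cast
    linear_combination (-8 - 5 * θ - 11 * θ ^ 2) * hrel
  · push_cast
    ring

theorem root_157 : ∑ i ∈ Finset.range 13, ((75 : ℤ) : ZMod 157) ^ i = 0 := by decide

theorem exists_isPrincipal_primesOver_157 :
    ∃ P ∈ primesOver (span {((157 : ℕ) : ℤ)}) (𝓞 K), Submodule.IsPrincipal P := by
  have : Fact (Nat.Prime 157) := ⟨by norm_num⟩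
  have hrel := zeta_relation (K := K)
  set θ := (zeta_spec 13 ℚ K).toInteger with hθ
  refine exists_isPrincipal_primesOver_of_root 157 (75) root_157
    (1 - θ + θ ^ 2 + θ ^ 4)
    (89 + 86 * θ + 42 * θ ^ 2 + 77 * θ ^ 3 + 67 * θ ^ 4 + 25 * θ ^ 5 + 37 * θ ^ 6 + 56 * θ ^ 7 + 73 * θ ^ 8 + 113 * θ ^ 9 + 124 * θ ^ 10 + 76 * θ ^ 11)
    (-43 - 41 * θ - 20 * θ ^ 2 - 37 * θ ^ 3 - 32 * θ ^ 4 - 12 * θ ^ 5 - 18 * θ ^ 6 - 27 * θ ^ 7 - 35 * θ ^ 8 - 54 * θ ^ 9 - 59 * θ ^ 10 - 36 * θ ^ 11)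
    (421949 + 5626 * θ + 75 * θ ^ 2 + θ ^ 3) (201568) ?_ ?_ ?_
  · push_cast
    linear_combination (-68 + 65 * θ + 48 * θ ^ 2 + 76 * θ ^ 3) * hrel
  · push_cast
    linear_combination (32 - 31 * θ - 23 * θ ^ 2 - 36 * θ ^ 3) * hrel
  · push_cast
    ring


/-! ### The prime `3` (residue degree `3`) -/

theorem irreducible_cubic_mod_three :
    Irreducible ((X ^ 3 - X - 1 : ℤ[X]).map (Int.castRingHom (ZMod 3))) := by
  have hmap : (X ^ 3 - X - 1 : ℤ[X]).map (Int.castRingHom (ZMod 3)) = X ^ 3 - X - 1 := by simp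
  rw [hmap]
  have hdeg : (X ^ 3 - X - 1 : (ZMod 3)[X]).natDegree = 3 := by compute_degree!
  apply irreducible_of_degree_le_three_of_not_isRoot
  · rw [hdeg]; decide
  · intro x
    simp only [IsRoot.def, eval_sub, eval_pow, eval_X, eval_one]
    revert x
    decide

theorem monic_cubic_mod_three :
    ((X ^ 3 - X - 1 : ℤ[X]).map (Int.castRingHom (ZMod 3))).Monic := by
  have hmap : (X ^ 3 - X - 1 : ℤ[X]).map (Int.castRingHom (ZMod 3)) = X ^ 3 - X - 1 := by simp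
  rw [hmap]
  monicity!

theorem cubic_dvd_cyclotomic_mod_three :
    (X ^ 3 - X - 1 : ℤ[X]).map (Int.castRingHom (ZMod 3)) ∣ cyclotomic 13 (ZMod 3) := by
  have : Fact (Nat.Prime 13) := ⟨by norm_num⟩
  have hmap : (X ^ 3 - X - 1 : ℤ[X]).map (Int.castRingHom (ZMod 3)) = X ^ 3 - X - 1 := by simp
  have h3 : (3 : (ZMod 3)[X]) = 0 := by
    have : (3 : (ZMod 3)[X]) = C (3 : ZMod 3) := (map_ofNat C 3).symm
    rw [this, show (3 : ZMod 3) = 0 from rfl, C_0]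
  rw [hmap, cyclotomic_prime]
  refine ⟨20 + 15 * X + 11 * X ^ 2 + 8 * X ^ 3 + 6 * X ^ 4 + 4 * X ^ 5 + 3 * X ^ 6 + 2 * X ^ 7
    + X ^ 8 + X ^ 9, ?_⟩
  simp only [Finset.sum_range_succ, Finset.sum_range_zero]
  linear_combination (7 + 12 * X + 9 * X ^ 2) * h3

theorem exists_isPrincipal_primesOver_3 :
    ∃ P ∈ primesOver (span {((3 : ℕ) : ℤ)}) (𝓞 K), Submodule.IsPrincipal P := by
  have : Fact (Nat.Prime 3) := ⟨by norm_num⟩
  have hrel := zeta_relation (K := K)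
  have haeval : aeval (zeta_spec 13 ℚ K).toInteger (X ^ 3 - X - 1 : ℤ[X]) =
      (zeta_spec 13 ℚ K).toInteger ^ 3 - (zeta_spec 13 ℚ K).toInteger - 1 := by
    simp
  set θ := (zeta_spec 13 ℚ K).toInteger with hθ
  refine exists_isPrincipal_primesOver 3 (X ^ 3 - X - 1) irreducible_cubic_mod_three
    monic_cubic_mod_three cubic_dvd_cyclotomic_mod_three
    (1 + θ - θ ^ 3)
    (-1 - θ ^ 2 - θ ^ 3 - 2 * θ ^ 5 - θ ^ 7 - 2 * θ ^ 8 + θ ^ 9 - 3 * θ ^ 10)
    (-1) (-1) 0 ?_ ?_ ?_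
  · push_cast
    linear_combination (-4 + 3 * θ) * hrel
  · rw [haeval]
    ring
  · rw [haeval]
    ring

/-! ### Orders modulo `13` -/

theorem lt_pow_of_pow_mod (p f : ℕ) (hp : p.Prime) (hf : 0 < f) (hmod : p ^ f % 13 = 1)
    (h3 : p ≠ 3) (h53 : p ≠ 53) (h79 : p ≠ 79) (h131 : p ≠ 131) (h157 : p ≠ 157) :
    306 < p ^ f := by
  by_contra hlt
  have hlt := Nat.not_lt.mp hlt
  have hp2 := hp.two_le
  have hf9 : f < 9 := by
    by_contra h
    have h := Nat.not_lt.mp h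
    have : 2 ^ 9 ≤ p ^ f :=
      (Nat.pow_le_pow_left hp2 9).trans (Nat.pow_le_pow_right (by omega) h)
    omega
  rcases Nat.lt_or_ge f 2 with hf2 | hf2
  · have hf1 : f = 1 := by omega
    rw [hf1, pow_one] at hmod hlt
    obtain ⟨k, rfl⟩ : ∃ k, p = 13 * k + 1 := ⟨p / 13, by omega⟩
    have hk : k ≤ 23 := by omega
    interval_cases k <;> first | omega | (norm_num at hp)
  · have hp17 : p ≤ 17 := by
      by_contra h
      have h : 18 ≤ p := by omega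
      have : 18 ^ 2 ≤ p ^ f :=
        (Nat.pow_le_pow_left h 2).trans (Nat.pow_le_pow_right (by omega) hf2)
      omega
    interval_cases p <;> interval_cases f <;>
      first | omega | (norm_num at hmod; done) | (norm_num at hp)

theorem lt_pow_orderOf (p : ℕ) (hp : p.Prime) (h3 : p ≠ 3) (h13 : p ≠ 13)
    (h53 : p ≠ 53) (h79 : p ≠ 79) (h131 : p ≠ 131) (h157 : p ≠ 157) :
    306 < p ^ orderOf (p : ZMod 13) := by
  have : Fact (Nat.Prime 13) := ⟨by norm_num⟩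
  have hne : (p : ZMod 13) ≠ 0 := by
    rw [Ne, ZMod.natCast_eq_zero_iff]
    intro h
    exact h13 ((Nat.prime_dvd_prime_iff_eq (by norm_num) hp).mp h).symm
  have hfin : IsOfFinOrder (p : ZMod 13) :=
    isOfFinOrder_iff_pow_eq_one.mpr ⟨12, by norm_num, ZMod.pow_card_sub_one_eq_one hne⟩
  have hpow : (p : ZMod 13) ^ orderOf (p : ZMod 13) = 1 := pow_orderOf_eq_one _
  have hmod : p ^ orderOf (p : ZMod 13) % 13 = 1 := by
    have h : ((p ^ orderOf (p : ZMod 13) : ℕ) : ZMod 13) = ((1 : ℕ) : ZMod 13) := by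
      push_cast
      exact hpow
    rw [ZMod.natCast_eq_natCast_iff'] at h
    simpa using h
  exact lt_pow_of_pow_mod p _ hp hfin.orderOf_pos hmod h3 h53 h79 h131 h157

/-! ### The Minkowski bound -/

/-- The Minkowski bound of the `13`-th cyclotomic field is `< 307`. -/
theorem floor_minkowski_le (K : Type u) [Field K] [NumberField K]
    [IsCyclotomicExtension {13} ℚ K] :
    ⌊(4 / π) ^ nrComplexPlaces K *
      ((finrank ℚ K)! / (finrank ℚ K) ^ (finrank ℚ K) * √|(discr K : ℝ)|)⌋₊ ≤ 306 := by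
  have : Fact (Nat.Prime 13) := ⟨by norm_num⟩
  rw [IsCyclotomicExtension.Rat.discr_prime 13 K,
    IsCyclotomicExtension.finrank (n := 13) K (irreducible_rat (by simp)),
    IsCyclotomicExtension.Rat.nrComplexPlaces_eq_totient_div_two 13,
    totient_prime (by norm_num : Nat.Prime 13)]
  have h12 : (12 : ℕ)! = 479001600 := by rfl
  have hsqrt : √|(((-1 : ℤ) ^ ((13 - 1) / 2) * ((13 : ℕ) : ℤ) ^ (13 - 2) : ℤ) : ℝ)| ≤ 1338717 := by
    rw [Real.sqrt_le_iff]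
    refine ⟨by norm_num, ?_⟩
    norm_num [abs_le]
  have hpi : (4 / π) ^ 6 ≤ (4 / 3.1415 : ℝ) ^ 6 := by
    gcongr
    exact pi_gt_d4.le
  have hpos : (0 : ℝ) ≤ (4 / π) ^ 6 := by positivity
  apply Nat.lt_succ_iff.mp
  rw [Nat.floor_lt (by positivity)]
  simp only [Nat.add_one_sub_one, Nat.reduceDiv, h12]
  calc (4 / π) ^ 6 * (((479001600 : ℕ) : ℝ) / ((12 : ℕ) : ℝ) ^ 12 *
          √|(((-1 : ℤ) ^ ((13 - 1) / 2) * ((13 : ℕ) : ℤ) ^ (13 - 2) : ℤ) : ℝ)|)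
      ≤ (4 / 3.1415 : ℝ) ^ 6 * (((479001600 : ℕ) : ℝ) / ((12 : ℕ) : ℝ) ^ 12 * 1338717) := by
        gcongr
    _ < ((306 + 1 : ℕ) : ℝ) := by norm_num

end Fermat.Agent.S10.PID13

namespace Fermat.Agent.S10

open NumberField Polynomial InfinitePlace Nat Real cyclotomic Module Ideal
open RingOfIntegers NumberField.Ideal IsCyclotomicExtension

universe u

/-- The ring of integers of the `13`-th cyclotomic field is a principal ideal domain. -/
theorem thirteen_pid (K : Type u) [Field K] [NumberField K] [IsCyclotomicExtension {13} ℚ K] :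
    IsPrincipalIdealRing (𝓞 K) := by
  have : Fact (Nat.Prime 13) := ⟨by norm_num⟩
  have : IsGalois ℚ K := IsCyclotomicExtension.isGalois {13} ℚ K
  have hM := PID13.floor_minkowski_le K
  apply RingOfIntegers.isPrincipalIdealRing_of_isPrincipal_of_lt_or_isPrincipal_of_mem_primesOver_of_mem_Icc
  intro p hp hpprime
  have : Fact p.Prime := ⟨hpprime⟩
  by_cases h3 : p = 3
  · subst h3
    obtain ⟨P, hP, hprinc⟩ := PID13.exists_isPrincipal_primesOver_3 (K := K)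
    exact ⟨P, hP, Or.inr hprinc⟩
  by_cases h53 : p = 53
  · subst h53
    obtain ⟨P, hP, hprinc⟩ := PID13.exists_isPrincipal_primesOver_53 (K := K)
    exact ⟨P, hP, Or.inr hprinc⟩
  by_cases h79 : p = 79
  · subst h79
    obtain ⟨P, hP, hprinc⟩ := PID13.exists_isPrincipal_primesOver_79 (K := K)
    exact ⟨P, hP, Or.inr hprinc⟩
  by_cases h131 : p = 131
  · subst h131
    obtain ⟨P, hP, hprinc⟩ := PID13.exists_isPrincipal_primesOver_131 (K := K)
    exact ⟨P, hP, Or.inr hprinc⟩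
  by_cases h157 : p = 157
  · subst h157
    obtain ⟨P, hP, hprinc⟩ := PID13.exists_isPrincipal_primesOver_157 (K := K)
    exact ⟨P, hP, Or.inr hprinc⟩
  by_cases h13 : p = 13
  · subst h13
    have hζ := zeta_spec 13 ℚ K
    exact ⟨span {hζ.toInteger - 1},
      ⟨Rat.isPrime_span_zeta_sub_one' 13 hζ, Rat.liesOver_span_zeta_sub_one 13 0 hζ⟩,
      Or.inr ⟨⟨_, rfl⟩⟩⟩
  obtain ⟨⟨P, hP1, hP2⟩⟩ := (Ideal.span {(p : ℤ)}).nonempty_primesOver (S := 𝓞 K)
  refine ⟨P, ⟨hP1, hP2⟩, Or.inl ?_⟩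
  have hndvd : ¬ p ∣ 13 := by
    intro h
    exact h13 ((Nat.prime_dvd_prime_iff_eq hpprime (by norm_num)).mp h)
  rw [IsCyclotomicExtension.Rat.inertiaDeg_eq_of_not_dvd p K P (m := 13) hndvd]
  exact lt_of_le_of_lt hM (PID13.lt_pow_orderOf p hpprime h3 h13 h53 h79 h131 h157)

end Fermat.Agent.S10
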