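/-
Case I of Fermat's Last Theorem for a prime exponent `p` with an auxiliary prime `q`
(Sophie Germain's theorem, in Legendre's generalised form).  Purely elementary: no number fields.
-/
import Mathlib

set_option autoImplicit false

namespace Fermat.Agent.S10

open Finset

/-- The cofactor `(y ^ p + z ^ p) / (y + z)` (for odd `p`). -/
def sgPhi (p : ℕ) (y z : ℤ) : ℤ := ∑ i ∈ range p, y ^ i * (-z) ^ (p - 1 - i)

lemma sgPhi_mul {p : ℕ} (hp : Odd p) (y z : ℤ) : sgPhi p y z * (y + z) = y ^ p + z ^ p := by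
  have h := (Commute.all y (-z)).geom_sum₂_mul p
  rw [sub_neg_eq_add, hp.neg_pow, sub_neg_eq_add] at h
  exact h

lemma sgPhi_sub_dvd (p : ℕ) (y z : ℤ) : (y + z) ∣ sgPhi p y z - p * y ^ (p - 1) := by
  have h1 : (p : ℤ) * y ^ (p - 1) = ∑ i ∈ range p, y ^ i * y ^ (p - 1 - i) := by
    have : ∀ i ∈ range p, y ^ i * y ^ (p - 1 - i) = y ^ (p - 1) := by
      intro i hi
      rw [← pow_add]
      congr 1
      have := Finset.mem_range.1 hi
      omega
    rw [Finset.sum_congr rfl this]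
    simp
  rw [sgPhi, h1, ← Finset.sum_sub_distrib]
  apply Finset.dvd_sum
  intro i _
  rw [← mul_sub]
  apply Dvd.dvd.mul_left
  have h2 : y + z ∣ -z - y := ⟨-1, by ring⟩
  exact h2.trans (sub_dvd_pow_sub_pow (-z) y (p - 1 - i))

lemma sgPhi_sub_dvd_left {p : ℕ} (hp : 0 < p) (x y : ℤ) :
    x ∣ sgPhi p x y - (-y) ^ (p - 1) := by
  obtain ⟨n, rfl⟩ := Nat.exists_eq_succ_of_ne_zero hp.ne'
  rw [sgPhi, Finset.sum_range_succ']
  simp only [pow_zero, one_mul, Nat.succ_sub_one, Nat.sub_zero, add_sub_cancel_right]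
  apply Finset.dvd_sum
  intro i _
  exact Dvd.dvd.mul_right (dvd_pow_self x (Nat.succ_ne_zero i)) _

/-- Root extraction: if `x^p + y^p + z^p = 0`, `y, z` coprime and `p ∤ x`, then `y + z` and the
cofactor are both `p`-th powers. -/
lemma sg_roots {p : ℕ} (hp : p.Prime) (hodd : Odd p) {x y z : ℤ} (hyz : IsCoprime y z)
    (h : x ^ p + y ^ p + z ^ p = 0) (hpx : ¬ (p : ℤ) ∣ x) :
    ∃ a α : ℤ, y + z = a ^ p ∧ sgPhi p y z = α ^ p := by
  have hprod : (y + z) * sgPhi p y z = (-x) ^ p := by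
    rw [mul_comm, sgPhi_mul hodd, hodd.neg_pow]; linarith
  have hp0 : p ≠ 0 := hp.ne_zero
  have hcop : IsCoprime (y + z) (sgPhi p y z) := by
    apply isCoprime_of_prime_dvd
    · rintro ⟨h0, -⟩
      rw [h0, zero_mul] at hprod
      have hx : x = 0 := by
        have := pow_eq_zero_iff hp0 |>.1 hprod.symm
        simpa using this
      exact hpx (hx ▸ dvd_zero _)
    · intro r hr hr1 hr2
      have h3 : r ∣ (p : ℤ) * y ^ (p - 1) := by
        have := (hr1.trans (sgPhi_sub_dvd p y z))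
        have h4 := dvd_sub hr2 this
        simpa using h4
      rcases hr.dvd_or_dvd h3 with h5 | h5
      · -- r ∣ p
        have hpp : Prime (p : ℤ) := Nat.prime_iff_prime_int.1 hp
        have hassoc : Associated r (p : ℤ) := hr.associated_of_dvd hpp h5
        have h6 : (p : ℤ) ∣ y + z := hassoc.dvd_iff_dvd_left.1 hr1
        have h7 : (p : ℤ) ∣ (-x) ^ p := hprod ▸ Dvd.dvd.mul_right h6 _
        have h8 : (p : ℤ) ∣ -x := hpp.dvd_of_dvd_pow h7
        exact hpx ((dvd_neg).1 h8)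
      · have h6 : r ∣ y := hr.dvd_of_dvd_pow h5
        have h7 : r ∣ z := (dvd_add_right h6).1 hr1
        exact hr.not_isUnit (hyz.isUnit_of_dvd' h6 h7)
  obtain ⟨a, ha⟩ := Int.eq_pow_of_mul_eq_pow_odd_left hcop hodd hprod
  obtain ⟨α, hα⟩ := Int.eq_pow_of_mul_eq_pow_odd_right hcop hodd hprod
  exact ⟨a, α, ha, hα⟩

lemma sg_case {p q : ℕ} (hp : p.Prime) (hodd : Odd p) (hq : q.Prime)
    (h1 : ∀ x y z : ZMod q, x ^ p + y ^ p + z ^ p = 0 → x = 0 ∨ y = 0 ∨ z = 0)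
    (h2 : ∀ t : ZMod q, t ^ p ≠ (p : ZMod q))
    {x y z : ℤ} (hxy : IsCoprime x y) (hyz : IsCoprime y z) (hzx : IsCoprime z x)
    (h : x ^ p + y ^ p + z ^ p = 0) (hpx : ¬ (p : ℤ) ∣ x) (hpy : ¬ (p : ℤ) ∣ y)
    (hpz : ¬ (p : ℤ) ∣ z) (hqx : (q : ℤ) ∣ x) : False := by
  have : Fact q.Prime := ⟨hq⟩
  have hqq : Prime (q : ℤ) := Nat.prime_iff_prime_int.1 hq
  obtain ⟨a, α, ha, hα⟩ := sg_roots hp hodd hyz h hpx
  obtain ⟨b, β, hb, hβ⟩ := sg_roots hp hodd hzx (show y ^ p + z ^ p + x ^ p = 0 by linarith) hpy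
  obtain ⟨c, γ, hc, hγ⟩ := sg_roots hp hodd hxy (show z ^ p + x ^ p + y ^ p = 0 by linarith) hpz
  have hqy : ¬ (q : ℤ) ∣ y := fun hy => hqq.not_isUnit (hxy.isUnit_of_dvd' hqx hy)
  have hqz : ¬ (q : ℤ) ∣ z := fun hz => hqq.not_isUnit (hzx.isUnit_of_dvd' hz hqx)
  have hsum : b ^ p + c ^ p + (-a) ^ p = 2 * x := by
    rw [hodd.neg_pow, ← ha, ← hb, ← hc]; ring
  have hsum' : (b : ZMod q) ^ p + (c : ZMod q) ^ p + ((-a : ℤ) : ZMod q) ^ p = 0 := by
    have h3 : ((b ^ p + c ^ p + (-a) ^ p : ℤ) : ZMod q) = 0 := by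
      rw [hsum, ZMod.intCast_zmod_eq_zero_iff_dvd]
      exact Dvd.dvd.mul_left hqx 2
    push_cast at h3 ⊢
    exact h3
  rcases h1 _ _ _ hsum' with hb0 | hc0 | ha0
  · have h3 : (q : ℤ) ∣ b := (ZMod.intCast_zmod_eq_zero_iff_dvd b q).1 hb0
    have h4 : (q : ℤ) ∣ z + x := hb ▸ dvd_pow h3 hp.ne_zero
    exact hqz ((dvd_add_left hqx).1 h4)
  · have h3 : (q : ℤ) ∣ c := (ZMod.intCast_zmod_eq_zero_iff_dvd c q).1 hc0
    have h4 : (q : ℤ) ∣ x + y := hc ▸ dvd_pow h3 hp.ne_zero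
    exact hqy ((dvd_add_right hqx).1 h4)
  · have h3 : (q : ℤ) ∣ a := by
      have := (ZMod.intCast_zmod_eq_zero_iff_dvd (-a) q).1 ha0
      exact (dvd_neg).1 this
    have h4 : (q : ℤ) ∣ y + z := ha ▸ dvd_pow h3 hp.ne_zero
    -- α^p ≡ p * y^(p-1) mod q
    have h5 : (q : ℤ) ∣ α ^ p - p * y ^ (p - 1) := hα ▸ h4.trans (sgPhi_sub_dvd p y z)
    -- γ^p ≡ y^(p-1) mod q
    have heven : Even (p - 1) := by
      obtain ⟨k, hk⟩ := hodd
      exact ⟨k, by omega⟩
    have h6 : (q : ℤ) ∣ γ ^ p - y ^ (p - 1) := by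
      have := hqx.trans (sgPhi_sub_dvd_left hp.pos x y)
      rwa [hγ, heven.neg_pow] at this
    have h5' : (α : ZMod q) ^ p = (p : ZMod q) * (y : ZMod q) ^ (p - 1) := by
      have := (ZMod.intCast_zmod_eq_zero_iff_dvd _ q).2 h5
      push_cast at this
      exact sub_eq_zero.1 this
    have h6' : (γ : ZMod q) ^ p = (y : ZMod q) ^ (p - 1) := by
      have := (ZMod.intCast_zmod_eq_zero_iff_dvd _ q).2 h6
      push_cast at this
      exact sub_eq_zero.1 this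
    have hy0 : (y : ZMod q) ≠ 0 := fun h0 => hqy ((ZMod.intCast_zmod_eq_zero_iff_dvd y q).1 h0)
    have hγ0 : (γ : ZMod q) ≠ 0 := by
      intro h0
      rw [h0, zero_pow hp.ne_zero] at h6'
      exact pow_ne_zero _ hy0 h6'.symm
    apply h2 ((α : ZMod q) * (γ : ZMod q)⁻¹)
    rw [mul_pow, h5', inv_pow, h6', mul_inv_cancel_right₀ (pow_ne_zero _ hy0)]

/-- **Sophie Germain's theorem** (Legendre's form).  Let `p` be an odd prime and `q` an auxiliary
prime such that `x^p + y^p + 1 = 0` has no solution with `x y ≠ 0` modulo `q`, and `p` is not a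
`p`-th power modulo `q`.  Then any pairwise coprime integer solution of `x^p + y^p + z^p = 0`
has `p ∣ x y z`. -/
theorem sophie_germain {p q : ℕ} (hp : p.Prime) (hodd : Odd p) (hq : q.Prime)
    (h1 : ∀ x y : ZMod q, x ^ p + y ^ p + 1 = 0 → x = 0 ∨ y = 0)
    (h2 : ∀ t : ZMod q, t ^ p ≠ (p : ZMod q))
    {x y z : ℤ} (hxy : IsCoprime x y) (hyz : IsCoprime y z) (hzx : IsCoprime z x)
    (h : x ^ p + y ^ p + z ^ p = 0) : (p : ℤ) ∣ x * y * z := by
  have : Fact q.Prime := ⟨hq⟩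
  have h1' : ∀ x y z : ZMod q, x ^ p + y ^ p + z ^ p = 0 → x = 0 ∨ y = 0 ∨ z = 0 := by
    intro x y z hxyz
    by_cases hz : z = 0
    · exact Or.inr (Or.inr hz)
    · have h3 : (x * z⁻¹) ^ p + (y * z⁻¹) ^ p + 1 = 0 := by
        have hzp : z ^ p ≠ 0 := pow_ne_zero _ hz
        have : (x * z⁻¹) ^ p + (y * z⁻¹) ^ p + 1 = (x ^ p + y ^ p + z ^ p) * (z ^ p)⁻¹ := by
          rw [mul_pow, mul_pow, inv_pow, add_mul, add_mul, mul_inv_cancel₀ hzp]
        rw [this, hxyz, zero_mul]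
      rcases h1 _ _ h3 with h4 | h4
      · left
        rcases mul_eq_zero.1 h4 with h5 | h5
        · exact h5
        · exact absurd (inv_eq_zero.1 h5) hz
      · right; left
        rcases mul_eq_zero.1 h4 with h5 | h5
        · exact h5
        · exact absurd (inv_eq_zero.1 h5) hz
  by_contra hcon
  have hpx : ¬ (p : ℤ) ∣ x := fun h' => hcon (Dvd.dvd.mul_right (Dvd.dvd.mul_right h' _) _)
  have hpy : ¬ (p : ℤ) ∣ y := fun h' => hcon (Dvd.dvd.mul_right (Dvd.dvd.mul_left h' _) _)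
  have hpz : ¬ (p : ℤ) ∣ z := fun h' => hcon (Dvd.dvd.mul_left h' _)
  have hmod : (x : ZMod q) ^ p + (y : ZMod q) ^ p + (z : ZMod q) ^ p = 0 := by
    have := congrArg (Int.cast : ℤ → ZMod q) h
    push_cast at this
    exact this
  rcases h1' _ _ _ hmod with hx | hy | hz
  · exact sg_case hp hodd hq h1' h2 hxy hyz hzx h hpx hpy hpz
      ((ZMod.intCast_zmod_eq_zero_iff_dvd x q).1 hx)
  · exact sg_case hp hodd hq h1' h2 hyz hzx hxy (by linarith) hpy hpz hpx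
      ((ZMod.intCast_zmod_eq_zero_iff_dvd y q).1 hy)
  · exact sg_case hp hodd hq h1' h2 hzx hxy hyz (by linarith) hpz hpx hpy
      ((ZMod.intCast_zmod_eq_zero_iff_dvd z q).1 hz)

/-- Case I for `p = 5` (auxiliary prime `11`). -/
theorem caseI_five {x y z : ℤ} (hxy : IsCoprime x y) (hyz : IsCoprime y z) (hzx : IsCoprime z x)
    (h : x ^ 5 + y ^ 5 + z ^ 5 = 0) : (5 : ℤ) ∣ x * y * z :=
  sophie_germain (p := 5) (q := 11) (by norm_num) (by decide) (by norm_num) (by decide)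
    (by decide) hxy hyz hzx h

/-- Case I for `p = 7` (auxiliary prime `29`). -/
theorem caseI_seven {x y z : ℤ} (hxy : IsCoprime x y) (hyz : IsCoprime y z) (hzx : IsCoprime z x)
    (h : x ^ 7 + y ^ 7 + z ^ 7 = 0) : (7 : ℤ) ∣ x * y * z :=
  sophie_germain (p := 7) (q := 29) (by norm_num) (by decide) (by norm_num) (by decide)
    (by decide) hxy hyz hzx h

/-- Case I for `p = 11` (auxiliary prime `23`). -/
theorem caseI_eleven {x y z : ℤ} (hxy : IsCoprime x y) (hyz : IsCoprime y z)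
    (hzx : IsCoprime z x) (h : x ^ 11 + y ^ 11 + z ^ 11 = 0) : (11 : ℤ) ∣ x * y * z :=
  sophie_germain (p := 11) (q := 23) (by norm_num) (by decide) (by norm_num) (by decide)
    (by decide) hxy hyz hzx h

/-- Case I for `p = 13` (auxiliary prime `53`). -/
theorem caseI_thirteen {x y z : ℤ} (hxy : IsCoprime x y) (hyz : IsCoprime y z)
    (hzx : IsCoprime z x) (h : x ^ 13 + y ^ 13 + z ^ 13 = 0) : (13 : ℤ) ∣ x * y * z :=
  sophie_germain (p := 13) (q := 53) (by norm_num) (by decide) (by norm_num) (by decide)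
    (by decide) hxy hyz hzx h

end Fermat.Agent.S10
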