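/-
Glue: Fermat's Last Theorem over `ℤ` for an odd prime exponent `p` from Case I (`p ∤ xyz`,
Sophie Germain) and Case II (`p ∣ z`).
-/
import Mathlib
import Fermat.Agent.S10.SophieGermain

set_option autoImplicit false

namespace Fermat.Agent.S10

/-- Case II of Fermat's Last Theorem for the exponent `p`, in symmetric form: there is no
solution of `x^p + y^p + z^p = 0` with `x, y` coprime, `z ≠ 0` and `p ∣ z`. -/
def CaseII (p : ℕ) : Prop :=
  ∀ x y z : ℤ, IsCoprime x y → z ≠ 0 → (p : ℤ) ∣ z → x ^ p + y ^ p + z ^ p ≠ 0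

lemma isCoprime_of_sum_pow_eq_zero {p : ℕ} (hp0 : p ≠ 0) {a b c : ℤ} (hab : IsCoprime a b)
    (h : a ^ p + b ^ p + c ^ p = 0) : IsCoprime b c := by
  apply isCoprime_of_prime_dvd
  · rintro ⟨rfl, rfl⟩
    have ha : a = 0 := by
      have : a ^ p = 0 := by simpa [zero_pow hp0] using h
      exact (pow_eq_zero_iff hp0).1 this
    subst ha
    exact not_isCoprime_zero_zero hab
  · intro r hr hrb hrc
    have h1 : r ∣ a ^ p := by
      have : a ^ p = -(b ^ p + c ^ p) := by linarith
      rw [this]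
      exact (dvd_neg).2 (dvd_add (dvd_pow hrb hp0) (dvd_pow hrc hp0))
    exact hr.not_isUnit (hab.isUnit_of_dvd' (hr.dvd_of_dvd_pow h1) hrb)

/-- FLT over `ℤ` for an odd prime `p`, from Case I and Case II. -/
theorem flt_int_of_cases {p : ℕ} (hp : p.Prime) (hodd : Odd p)
    (hI : ∀ x y z : ℤ, IsCoprime x y → IsCoprime y z → IsCoprime z x →
      x ^ p + y ^ p + z ^ p = 0 → (p : ℤ) ∣ x * y * z)
    (hII : CaseII p) : FermatLastTheoremWith ℤ p := by
  have hp0 : p ≠ 0 := hp.ne_zero
  have hpp : Prime (p : ℤ) := Nat.prime_iff_prime_int.1 hp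
  apply fermatLastTheoremWith_of_fermatLastTheoremWith_coprime
  intro a b c ha hb hc hgcd habc
  have hab : IsCoprime a b := by
    apply isCoprime_of_prime_dvd
    · rintro ⟨rfl, -⟩; exact ha rfl
    · intro r hr hra hrb
      have hrc : r ∣ c := by
        apply hr.dvd_of_dvd_pow (n := p)
        rw [← habc]
        exact dvd_add (dvd_pow hra hp0) (dvd_pow hrb hp0)
      apply hr.not_isUnit
      apply isUnit_of_dvd_one
      rw [← hgcd]
      refine Finset.dvd_gcd_iff.2 fun x hx => ?_
      simp only [Finset.mem_insert, Finset.mem_singleton] at hx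
      rcases hx with rfl | rfl | rfl <;> simpa using ‹_›
  have h0 : a ^ p + b ^ p + (-c) ^ p = 0 := by rw [hodd.neg_pow, habc]; ring
  have hbc : IsCoprime b (-c) := isCoprime_of_sum_pow_eq_zero hp0 hab h0
  have hca : IsCoprime (-c) a :=
    isCoprime_of_sum_pow_eq_zero hp0 hbc (by linarith)
  have hdvd := hI a b (-c) hab hbc hca h0
  have hc' : -c ≠ 0 := neg_ne_zero.2 hc
  rcases hpp.dvd_or_dvd hdvd with h1 | h1
  · rcases hpp.dvd_or_dvd h1 with h2 | h2
    · exact hII b (-c) a hbc ha h2 (by linarith)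
    · exact hII (-c) a b hca hb h2 (by linarith)
  · exact hII a b (-c) hab hc' h1 h0

end Fermat.Agent.S10
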