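import Mathlib

set_option autoImplicit false

namespace Fermat.Agent.S10

open NumberField Polynomial InfinitePlace Nat Real Module Ideal

/-- The order of `2` in `(ZMod 7)` is `3`. -/
theorem orderOf_two_zmod_seven : orderOf ((2 : ℕ) : ZMod 7) = 3 := by
  have h : ((2 : ℕ) : ZMod 7) ^ 3 = 1 := by decide
  have h3 : Fact (Nat.Prime 3) := ⟨by norm_num⟩
  have hne : ((2 : ℕ) : ZMod 7) ≠ 1 := by decide
  exact orderOf_eq_prime h hne

/-- The order of `3` in `(ZMod 7)` is `6`. -/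
theorem orderOf_three_zmod_seven : orderOf ((3 : ℕ) : ZMod 7) = 6 := by
  rw [orderOf_eq_iff (by norm_num)]
  refine ⟨by decide, ?_⟩
  intro m hm hm0
  interval_cases m <;> decide

/-- The Minkowski bound of the `7`-th cyclotomic field is less than `5`. -/
theorem minkowski_seven_lt (K : Type*) [Field K] [NumberField K] [IsCyclotomicExtension {7} ℚ K] :
    ⌊(4 / π) ^ nrComplexPlaces K *
      ((finrank ℚ K)! / (finrank ℚ K) ^ (finrank ℚ K) * √|discr K|)⌋₊ ≤ 4 := by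
  have hp7 : Fact (Nat.Prime 7) := ⟨by norm_num⟩
  rw [IsCyclotomicExtension.Rat.discr_prime 7 K, IsCyclotomicExtension.Rat.finrank 7 K,
    IsCyclotomicExtension.Rat.nrComplexPlaces_eq_totient_div_two 7, totient_prime hp7.out]
  have h6 : (6 : ℕ)! = 720 := by decide
  have habs : |((((-1 : ℤ) ^ ((7 - 1) / 2) * ((7 : ℕ) : ℤ) ^ (7 - 2) : ℤ)) : ℝ)| = 16807 := by
    norm_num
  simp only [show (7 - 1 : ℕ) = 6 by norm_num, show (6 / 2 : ℕ) = 3 by norm_num, h6]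
  have habs' : |(((-1 : ℤ) ^ 3 * ((7 : ℕ) : ℤ) ^ (7 - 2) : ℤ) : ℝ)| = 16807 := by norm_num
  rw [habs']
  have hsqrt : √(16807 : ℝ) < 130 := by
    rw [Real.sqrt_lt' (by norm_num)]
    norm_num
  have hpi : (4 / π : ℝ) < 4 / 3 := by
    apply div_lt_div_of_pos_left (by norm_num) (by norm_num) pi_gt_three
  have hpi0 : (0 : ℝ) < 4 / π := by positivity
  have h1 : (4 / π : ℝ) ^ 3 < (4 / 3) ^ 3 := by gcongr
  have hlt : (4 / π : ℝ) ^ 3 * (((720 : ℕ) : ℝ) / ((6 : ℕ) : ℝ) ^ 6 * √16807) < 5 := by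
    have h2 : (((720 : ℕ) : ℝ) / ((6 : ℕ) : ℝ) ^ 6 * √16807) < 720 / 6 ^ 6 * 130 := by
      push_cast
      gcongr
    calc (4 / π : ℝ) ^ 3 * (((720 : ℕ) : ℝ) / ((6 : ℕ) : ℝ) ^ 6 * √16807)
        < (4 / 3) ^ 3 * (720 / 6 ^ 6 * 130) := by gcongr
      _ < 5 := by norm_num
  exact Nat.lt_succ_iff.mp ((Nat.floor_lt (by positivity)).mpr (by exact_mod_cast hlt))

/-- If `IsCyclotomicExtension {7} ℚ K` then `𝓞 K` is a principal ideal domain. -/
theorem seven_pid (K : Type*) [Field K] [NumberField K] [IsCyclotomicExtension {7} ℚ K] :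
    IsPrincipalIdealRing (𝓞 K) := by
  have hp7 : Fact (Nat.Prime 7) := ⟨by norm_num⟩
  have hgal : IsGalois ℚ K := IsCyclotomicExtension.isGalois {7} ℚ K
  apply RingOfIntegers.isPrincipalIdealRing_of_isPrincipal_of_lt_or_isPrincipal_of_mem_primesOver_of_mem_Icc
  have hM := minkowski_seven_lt K
  intro p hp hpprime
  have hp4 : p ≤ 4 := (Finset.mem_Icc.mp hp).2.trans hM
  have hp23 : p = 2 ∨ p = 3 := by
    interval_cases p
    · exact absurd hpprime (by norm_num)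
    · exact absurd hpprime (by norm_num)
    · exact Or.inl rfl
    · exact Or.inr rfl
    · exact absurd hpprime (by norm_num)
  rcases hp23 with rfl | rfl
  · have h2 : Fact (Nat.Prime 2) := ⟨Nat.prime_two⟩
    obtain ⟨⟨P, hP1, hP2⟩⟩ := (span {((2 : ℕ) : ℤ)}).nonempty_primesOver (S := 𝓞 K)
    refine ⟨P, ⟨hP1, hP2⟩, Or.inl ?_⟩
    rw [IsCyclotomicExtension.Rat.inertiaDeg_eq_of_not_dvd 2 K P (by norm_num : ¬ 2 ∣ 7),
      orderOf_two_zmod_seven]
    exact lt_of_le_of_lt hM (by norm_num)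
  · have h3 : Fact (Nat.Prime 3) := ⟨Nat.prime_three⟩
    obtain ⟨⟨P, hP1, hP2⟩⟩ := (span {((3 : ℕ) : ℤ)}).nonempty_primesOver (S := 𝓞 K)
    refine ⟨P, ⟨hP1, hP2⟩, Or.inl ?_⟩
    rw [IsCyclotomicExtension.Rat.inertiaDeg_eq_of_not_dvd 3 K P (by norm_num : ¬ 3 ∣ 7),
      orderOf_three_zmod_seven]
    exact lt_of_le_of_lt hM (by norm_num)

end Fermat.Agent.S10
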